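import Fermat.Agent.Hamburger.Rigidity

/-!
# The completed zeta function satisfies the hypotheses

`s (s - 1) Λ s` is entire and is `O (exp (|s|³))`.
-/

set_option autoImplicit false

noncomputable section

namespace FA.Hamburger

open Complex Filter Topology MeasureTheory Set HurwitzZeta
open scoped Real

theorem exists_norm_completed₀_strip :
    ∃ C, 0 ≤ C ∧ ∀ s : ℂ, -1 ≤ s.re → s.re ≤ 2 → ‖completedRiemannZeta₀ s‖ ≤ C := by
  obtain ⟨f, hf⟩ : ∃ f, f = (hurwitzEvenFEPair 0).f_modif := ⟨_, rfl⟩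
  have hconv : ∀ z : ℂ, MellinConvergent f z := fun z => hf ▸
    ((hurwitzEvenFEPair 0).isStrongFEPair_toStrongFEPair.hasMellin z).1
  have habs : ∀ c : ℝ, IntegrableOn (fun x : ℝ => x ^ c * ‖f x‖) (Ioi 0) := fun c => by
    have h : IntegrableOn (fun x : ℝ => ‖(x : ℂ) ^ (((c + 1 : ℝ) : ℂ) - 1) • f x‖) (Ioi 0) :=
      Integrable.norm (hconv ((c + 1 : ℝ) : ℂ))
    refine h.congr_fun (fun x hx => ?_) measurableSet_Ioi
    simp only [norm_smul]
    rw [norm_cpow_eq_rpow_re_of_pos hx]
    simp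
  have hi := (habs (-(3 / 2))).fun_add (habs 0)
  refine ⟨(∫ x in Ioi (0 : ℝ), (x ^ (-(3 / 2) : ℝ) * ‖f x‖ + x ^ (0 : ℝ) * ‖f x‖)) / 2,
    div_nonneg (setIntegral_nonneg measurableSet_Ioi fun x hx => by
      have : 0 ≤ x := le_of_lt hx
      positivity) two_pos.le, fun s h1 h2 => ?_⟩
  rw [completedRiemannZeta₀, completedHurwitzZetaEven₀, norm_div, Complex.norm_ofNat]
  refine div_le_div_of_nonneg_right ?_ two_pos.le
  rw [WeakFEPair.Λ₀, ← hf, mellin]
  refine (norm_integral_le_of_norm_le hi ?_)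
  filter_upwards [ae_restrict_mem measurableSet_Ioi] with x hx
  have hx0 : 0 < x := hx
  rw [norm_smul, norm_cpow_eq_rpow_re_of_pos hx0]
  have hre : (s / 2 - 1).re = s.re / 2 - 1 := by simp
  rw [hre, ← add_mul]
  refine mul_le_mul_of_nonneg_right ?_ (norm_nonneg _)
  rcases le_total x 1 with h | h
  · exact (Real.rpow_le_rpow_of_exponent_ge hx0 h (by linarith)).trans
      (le_add_of_nonneg_right (by positivity))
  · exact (Real.rpow_le_rpow_of_exponent_le h (by linarith)).trans
      (le_add_of_nonneg_left (by positivity))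

theorem Gamma_le_exp_sq {x : ℝ} (hx : 1 ≤ x) : Real.Gamma x ≤ 2 * Real.exp (2 * x ^ 2) := by
  have hI : Integrable (fun u : ℝ => Real.exp (-((1 / 2) * u))) (volume.restrict (Ioi 0)) := by
    have h := exp_neg_integrableOn_Ioi 0 (show (0 : ℝ) < 1 / 2 by norm_num)
    simp only [neg_mul] at h
    exact h
  rw [Real.Gamma_eq_integral (by linarith)]
  refine (setIntegral_mono_on (Real.GammaIntegral_convergent (by linarith))
    (Integrable.const_mul hI (Real.exp (2 * x ^ 2))) measurableSet_Ioi fun u hu => ?_).trans ?_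
  · have hu0 : 0 < u := hu
    rw [Real.rpow_def_of_pos hu0, ← Real.exp_add, ← Real.exp_add]
    refine Real.exp_le_exp.2 ?_
    have hl : Real.log (u / (2 * x)) ≤ u / (2 * x) - 1 := Real.log_le_sub_one_of_pos (by positivity)
    rw [Real.log_div hu0.ne' (by positivity)] at hl
    have hl2 : Real.log (2 * x) ≤ 2 * x := Real.log_le_self (by linarith)
    have e : u / (2 * x) * x = u / 2 := by field_simp
    nlinarith [mul_le_mul_of_nonneg_left hl (show (0 : ℝ) ≤ x - 1 by linarith),
      mul_le_mul_of_nonneg_left hl2 (show (0 : ℝ) ≤ x - 1 by linarith),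
      div_nonneg hu0.le (show (0 : ℝ) ≤ 2 * x by linarith)]
  · have h := integral_exp_mul_Ioi (show -(1 / 2 : ℝ) < 0 by norm_num) 0
    simp only [neg_mul, mul_zero, Real.exp_zero] at h
    rw [integral_const_mul, h]
    linarith [Real.exp_pos (2 * x ^ 2)]

theorem exists_norm_completed₀_right :
    ∃ C, 0 ≤ C ∧ ∀ s : ℂ, 2 ≤ s.re → ‖completedRiemannZeta₀ s‖ ≤ C * Real.exp (2 * ‖s‖ ^ 2) := by
  obtain ⟨Z, hZ⟩ : ∃ Z, Z = ∑' n, ‖LSeries.term 1 2 n‖ := ⟨_, rfl⟩
  have hZ0 : 0 ≤ Z := hZ ▸ tsum_nonneg fun _ => norm_nonneg _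
  refine ⟨2 * Z + 2, by positivity, fun s hs => ?_⟩
  have hs0 : s ≠ 0 := fun h => by rw [h] at hs; simp at hs; linarith
  have he : completedRiemannZeta₀ s = Gammaℝ s * riemannZeta s + 1 / s + 1 / (1 - s) := by
    rw [riemannZeta_def_of_ne_zero hs0, mul_div_cancel₀ _ (Gammaℝ_ne_zero_of_re_pos (by linarith)),
      completedRiemannZeta_eq]
    ring
  have hexp : 1 ≤ Real.exp (2 * ‖s‖ ^ 2) := Real.one_le_exp (by positivity)
  have hG : ‖Gammaℝ s‖ ≤ 2 * Real.exp (2 * ‖s‖ ^ 2) := by
    have hhalf : (s / 2).re = s.re / 2 := by simp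
    rw [Gammaℝ_def, norm_mul, norm_cpow_eq_rpow_re_of_pos Real.pi_pos]
    refine (mul_le_of_le_one_left (norm_nonneg _) (Real.rpow_le_one_of_one_le_of_nonpos
      (by linarith [Real.pi_gt_three]) (by simp; linarith))).trans ?_
    rw [Complex.Gamma_eq_integral (by rw [hhalf]; linarith), GammaIntegral]
    refine (norm_integral_le_integral_norm _).trans (le_trans (le_of_eq ?_)
      ((Gamma_le_exp_sq (x := s.re / 2) (by linarith)).trans ?_))
    · rw [Real.Gamma_eq_integral (by linarith)]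
      refine setIntegral_congr_fun measurableSet_Ioi fun x hx => ?_
      rw [norm_mul, norm_real, Real.norm_of_nonneg (Real.exp_pos _).le,
        norm_cpow_eq_rpow_re_of_pos hx, sub_re, one_re, hhalf]
    · refine mul_le_mul_of_nonneg_left (Real.exp_le_exp.2 ?_) two_pos.le
      nlinarith [Complex.abs_re_le_norm s, abs_of_nonneg (show 0 ≤ s.re by linarith)]
  have hzeta : ‖riemannZeta s‖ ≤ Z := by
    rw [← LSeries_one_eq_riemannZeta (by linarith : 1 < s.re), hZ]
    have hle : ∀ n, ‖LSeries.term 1 s n‖ ≤ ‖LSeries.term 1 2 n‖ := fun n =>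
      LSeries.norm_term_le_of_re_le_re 1 (by simpa using hs) n
    have h2 : Summable fun n => ‖LSeries.term 1 2 n‖ :=
      (LSeriesSummable_one_iff.2 (by simp)).norm
    exact (norm_tsum_le_tsum_norm (Summable.of_nonneg_of_le (fun _ => norm_nonneg _) hle h2)).trans
      (Summable.tsum_le_tsum hle (Summable.of_nonneg_of_le (fun _ => norm_nonneg _) hle h2) h2)
  have h3 : ‖(1 : ℂ) / s‖ ≤ 1 := by
    rw [norm_div, norm_one, div_le_one (norm_pos_iff.2 hs0)]
    linarith [Complex.re_le_norm s]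
  have h4 : ‖(1 : ℂ) / (1 - s)‖ ≤ 1 := by
    have h : 1 ≤ ‖1 - s‖ := by
      rw [norm_sub_rev]
      exact le_trans (by simp; linarith) (Complex.re_le_norm (s - 1))
    rw [norm_div, norm_one, div_le_one (by linarith)]
    exact h
  rw [he]
  refine norm_add₃_le.trans ?_
  rw [norm_mul]
  nlinarith [mul_le_mul hG hzeta (norm_nonneg _) (by positivity)]

/-- The completed zeta function, times `s (s - 1)`. -/
def zetaG (s : ℂ) : ℂ := s * (s - 1) * completedRiemannZeta₀ s + 1

theorem zetaG_eq {s : ℂ} (h0 : s ≠ 0) (h1 : s ≠ 1) :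
    zetaG s = s * (s - 1) * completedRiemannZeta s := by
  rw [zetaG, completedRiemannZeta_eq]
  have := sub_ne_zero.2 h1.symm
  field_simp
  ring

theorem hamburgerData_zeta : HamburgerData 1 1 zetaG where
  summable_left := LSeriesSummable_one_iff.2 (by simp)
  summable_right := LSeriesSummable_one_iff.2 (by simp)
  entire := ((differentiable_id.mul (differentiable_id.sub_const 1)).mul
    differentiable_completedZeta₀).add_const 1
  finite_order := by
    obtain ⟨K, hK0, hK⟩ := exists_norm_completed₀_strip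
    obtain ⟨C, hC0, hC⟩ := exists_norm_completed₀_right
    obtain ⟨B, hB⟩ : ∃ B, B = K + C + 1 := ⟨_, rfl⟩
    refine ⟨B * Real.exp 1000, 3, fun s => ?_⟩
    obtain ⟨r, hr⟩ : ∃ r, r = ‖s‖ := ⟨_, rfl⟩
    have hr0 : 0 ≤ r := hr ▸ norm_nonneg s
    have h1 : ‖completedRiemannZeta₀ s‖ ≤ B * Real.exp (2 * (r + 1) ^ 2) := by
      have hexp : 1 ≤ Real.exp (2 * (r + 1) ^ 2) := Real.one_le_exp (by positivity)
      rcases lt_or_ge s.re (-1) with h | h
      · rw [← completedRiemannZeta₀_one_sub]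
        refine (hC _ (by simp; linarith)).trans (mul_le_mul (by linarith) (Real.exp_le_exp.2 ?_)
          (Real.exp_pos _).le (by linarith))
        refine mul_le_mul_of_nonneg_left (pow_le_pow_left₀ (norm_nonneg _) ?_ 2) two_pos.le
        rw [hr, add_comm]
        simpa using norm_sub_le (1 : ℂ) s
      rcases le_or_gt s.re 2 with h' | h'
      · refine ((hK s h h').trans ?_).trans (le_mul_of_one_le_right (by linarith) hexp)
        linarith
      · refine (hC _ h'.le).trans (mul_le_mul (by linarith) (Real.exp_le_exp.2 ?_)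
          (Real.exp_pos _).le (by linarith))
        rw [← hr]
        nlinarith
    have h2 : ‖s * (s - 1)‖ ≤ r * (r + 1) := by
      rw [norm_mul, hr]
      refine mul_le_mul_of_nonneg_left ?_ (norm_nonneg _)
      simpa using norm_sub_le s 1
    have h3 : r * (r + 1) + 1 ≤ Real.exp ((r + 1) ^ 2) :=
      le_trans (by nlinarith) (Real.add_one_le_exp ((r + 1) ^ 2))
    rw [← hr, show r ^ (3 : ℝ) = r ^ (3 : ℕ) by norm_cast, mul_assoc, ← Real.exp_add]
    calc ‖zetaG s‖ ≤ ‖s * (s - 1)‖ * ‖completedRiemannZeta₀ s‖ + 1 := by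
          rw [zetaG]
          refine (norm_add_le _ _).trans ?_
          rw [norm_mul, norm_one]
      _ ≤ r * (r + 1) * (B * Real.exp (2 * (r + 1) ^ 2)) +
          1 * (B * Real.exp (2 * (r + 1) ^ 2)) := by
          refine add_le_add (mul_le_mul h2 h1 (norm_nonneg _) (by positivity)) ?_
          rw [one_mul]
          nlinarith [Real.one_le_exp (show 0 ≤ 2 * (r + 1) ^ 2 by positivity)]
      _ = (r * (r + 1) + 1) * (B * Real.exp (2 * (r + 1) ^ 2)) := by ring
      _ ≤ Real.exp ((r + 1) ^ 2) * (B * Real.exp (2 * (r + 1) ^ 2)) :=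
          mul_le_mul_of_nonneg_right h3 (mul_nonneg (by linarith) (Real.exp_pos _).le)
      _ = B * Real.exp (3 * (r + 1) ^ 2) := by
          rw [mul_left_comm, ← Real.exp_add]; ring_nf
      _ ≤ _ := by
          refine mul_le_mul_of_nonneg_left (Real.exp_le_exp.2 ?_) (by linarith)
          nlinarith [sq_nonneg (r - 6), sq_nonneg r, mul_nonneg hr0 (sq_nonneg (r - 4))]
  left_eq := fun s hs => by
    have h0 : s ≠ 0 := fun h => by rw [h] at hs; simp at hs; linarith
    have h1 : s ≠ 1 := fun h => by rw [h] at hs; simp at hs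
    rw [zetaG_eq h0 h1, LSeries_one_eq_riemannZeta hs, riemannZeta_def_of_ne_zero h0,
      mul_div_cancel₀ _ (Gammaℝ_ne_zero_of_re_pos (by linarith))]
  right_eq := fun s hs => by
    have h0 : s ≠ 0 := fun h => by rw [h] at hs; simp at hs
    have h1 : s ≠ 1 := fun h => by rw [h] at hs; simp at hs; linarith
    have hw : 1 < (1 - s).re := by simp; linarith
    have hw0 : 1 - s ≠ 0 := sub_ne_zero.2 h1.symm
    rw [zetaG_eq h0 h1, LSeries_one_eq_riemannZeta hw, riemannZeta_def_of_ne_zero hw0,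
      mul_div_cancel₀ _ (Gammaℝ_ne_zero_of_re_pos (by linarith)), completedRiemannZeta_one_sub]

end FA.Hamburger
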