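import Mathlib

/-!
# The theta relation of a Dirichlet series with the functional equation of `ζ`

Mellin inversion on `re s = 2` and `re s = -1`, and a contour shift across the poles `0` and `1`.
-/

set_option autoImplicit false

noncomputable section

namespace FA.Hamburger

open Complex Filter Topology MeasureTheory Set Asymptotics
open scoped Real

/-- The completed series, times `s (s - 1)`, is entire and of finite order. -/
structure HamburgerData (a b : ℕ → ℂ) (G : ℂ → ℂ) : Prop where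
  summable_left : LSeriesSummable a 2
  summable_right : LSeriesSummable b 2
  entire : Differentiable ℂ G
  finite_order : ∃ C A : ℝ, ∀ s, ‖G s‖ ≤ C * Real.exp (‖s‖ ^ A)
  left_eq : ∀ s : ℂ, 1 < s.re → G s = s * (s - 1) * (Gammaℝ s * LSeries a s)
  right_eq : ∀ s : ℂ, s.re < 0 → G s = s * (s - 1) * (Gammaℝ (1 - s) * LSeries b (1 - s))

/-- `∑ a n exp (-π n² x)`. -/
def thetaOf (a : ℕ → ℂ) (x : ℝ) : ℂ :=
  ∑' n : ℕ, (if n = 0 then 0 else a n) * (Real.exp (-(π * (n : ℝ) ^ 2 * x)) : ℝ)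

theorem norm_mul_Gammaℝ_le {w : ℂ} (hw : w.re = 2) : ‖w * (w - 1) * Gammaℝ w‖ ≤ 8 := by
  obtain ⟨u, hu⟩ : ∃ u : ℂ, u = w / 2 := ⟨_, rfl⟩
  have hure : u.re = 1 := by simp [hu, hw]
  have hu0 : u ≠ 0 := fun h => by rw [h] at hure; simp at hure
  have hu1 : u + 1 ≠ 0 := fun h => by
    have := congrArg Complex.re h
    simp [hure] at this
  have hG : ‖Complex.Gamma (u + 1 + 1)‖ ≤ 2 := by
    have hre : (u + 1 + 1).re = 3 := by simp [hure]; norm_num
    have h3 : Real.Gamma 3 = 2 := by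
      rw [show (3 : ℝ) = ((2 : ℕ) : ℝ) + 1 by norm_num, Real.Gamma_nat_eq_factorial]
      norm_num
    rw [← h3, ← hre, Complex.Gamma_eq_integral (by rw [hre]; norm_num),
      Real.Gamma_eq_integral (by rw [hre]; norm_num), GammaIntegral]
    refine (norm_integral_le_integral_norm _).trans (le_of_eq ?_)
    refine setIntegral_congr_fun measurableSet_Ioi fun x hx => ?_
    rw [norm_mul, norm_real, Real.norm_of_nonneg (Real.exp_pos _).le,
      norm_cpow_eq_rpow_re_of_pos hx, sub_re, one_re]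
  rw [Complex.Gamma_add_one _ hu1, Complex.Gamma_add_one _ hu0, norm_mul, norm_mul] at hG
  have h1 : ‖Gammaℝ w‖ ≤ ‖Complex.Gamma u‖ := by
    rw [Gammaℝ_def, norm_mul, ← hu, norm_cpow_eq_rpow_re_of_pos Real.pi_pos]
    refine mul_le_of_le_one_left (norm_nonneg _) (Real.rpow_le_one_of_one_le_of_nonpos
      (by linarith [Real.pi_gt_three]) (by simp [hw]))
  have h2 : ‖w‖ ≤ 2 * ‖u‖ := by rw [hu, norm_div]; norm_num; linarith
  have h3 : ‖w - 1‖ ≤ 2 * ‖u + 1‖ := by
    have e : ∀ z : ℂ, ‖z‖ = Real.sqrt (z.re ^ 2 + z.im ^ 2) := fun z => by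
      rw [Complex.norm_def, Complex.normSq_apply, sq, sq]
    rw [show (2 : ℝ) * ‖u + 1‖ = ‖(2 : ℂ) * (u + 1)‖ by simp, e, e]
    refine Real.sqrt_le_sqrt (add_le_add ?_ (le_of_eq ?_))
    · simp [hu, hw]
      norm_num
    · simp [hu]
      ring
  rw [norm_mul, norm_mul]
  calc ‖w‖ * ‖w - 1‖ * ‖Gammaℝ w‖ ≤ 2 * ‖u‖ * (2 * ‖u + 1‖) * ‖Complex.Gamma u‖ := by gcongr
    _ ≤ 8 := by linarith

theorem norm_LSeries_le {a : ℕ → ℂ} (ha : LSeriesSummable a 2) {s : ℂ} (hs : s.re = 2) :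
    ‖LSeries a s‖ ≤ ∑' n, ‖LSeries.term a 2 n‖ := by
  have e : ∀ n, ‖LSeries.term a s n‖ = ‖LSeries.term a 2 n‖ := fun n => by
    rw [LSeries.norm_term_eq, LSeries.norm_term_eq, hs, show (2 : ℂ).re = 2 by simp]
  refine (norm_tsum_le_tsum_norm (ha.norm.congr fun n => (e n).symm)).trans (le_of_eq ?_)
  exact tsum_congr e

variable {a b : ℕ → ℂ} {G : ℂ → ℂ}

theorem isBigO_strip (hd : HamburgerData a b G) :
    G =O[comap (_root_.abs ∘ Complex.im) atTop ⊓ 𝓟 (Complex.re ⁻¹' Ioo (-1 : ℝ) 2)]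
      fun z => Real.exp (1 * Real.exp (1 * |z.im|)) := by
  obtain ⟨C, A, hC⟩ := hd.finite_order
  refine IsBigO.of_bound (|C| + 1) ?_
  have hev : ∀ᶠ y : ℝ in atTop, (y + 2) ^ max A 0 ≤ Real.exp y := by
    have h := ((isLittleO_rpow_exp_atTop (max A 0)).comp_tendsto
      (tendsto_atTop_add_const_right _ (2 : ℝ) tendsto_id)).bound (Real.exp_pos (-2))
    filter_upwards [h, eventually_ge_atTop 0] with y hy h0
    simp only [Function.comp_apply, id_eq, Real.norm_eq_abs] at hy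
    rw [abs_of_nonneg (Real.rpow_nonneg (by linarith) _), Real.abs_exp, ← Real.exp_add,
      neg_add_eq_sub, add_sub_cancel_right] at hy
    exact hy
  obtain ⟨y₀, hy₀⟩ := eventually_atTop.1 (hev.and (eventually_ge_atTop (2 : ℝ)))
  rw [eventually_inf_principal]
  refine Filter.mem_of_superset (preimage_mem_comap (Ici_mem_atTop y₀)) fun z hz hstrip => ?_
  simp only [mem_preimage, Function.comp_apply, mem_Ici] at hz
  obtain ⟨hpow, hy2⟩ := hy₀ _ hz
  rw [mem_preimage, mem_Ioo] at hstrip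
  rw [Real.norm_of_nonneg (Real.exp_pos _).le, one_mul, one_mul]
  refine (hC z).trans (mul_le_mul ((le_abs_self C).trans (le_add_of_nonneg_right zero_le_one))
    (Real.exp_le_exp.2 ?_) (Real.exp_pos _).le (by positivity))
  have h1 : 1 ≤ ‖z‖ := le_trans (by linarith) (Complex.abs_im_le_norm z)
  have h2 : ‖z‖ ≤ |z.im| + 2 := by
    refine (norm_le_abs_re_add_abs_im z).trans ?_
    have : |z.re| ≤ 2 := abs_le.2 ⟨by linarith, by linarith⟩
    linarith
  exact ((Real.rpow_le_rpow_of_exponent_le h1 (le_max_left A 0)).trans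
    (Real.rpow_le_rpow (norm_nonneg z) h2 (le_max_right A 0))).trans hpow

theorem exists_norm_le_strip (hd : HamburgerData a b G) :
    ∃ C, 0 ≤ C ∧ ∀ z : ℂ, -1 ≤ z.re → z.re ≤ 2 → ‖G z‖ ≤ C := by
  obtain ⟨K, hK⟩ : ∃ K, K = 8 * ((∑' n, ‖LSeries.term a 2 n‖) + ∑' n, ‖LSeries.term b 2 n‖) :=
    ⟨_, rfl⟩
  have ha0 : 0 ≤ ∑' n, ‖LSeries.term a 2 n‖ := tsum_nonneg fun _ => norm_nonneg _
  have hb0 : 0 ≤ ∑' n, ‖LSeries.term b 2 n‖ := tsum_nonneg fun _ => norm_nonneg _
  refine ⟨K, by rw [hK]; positivity, fun z h1 h2 => PhragmenLindelof.vertical_strip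
    hd.entire.diffContOnCl ⟨1, ?_, 1, isBigO_strip hd⟩ (fun w hw => ?_) (fun w hw => ?_) h1 h2⟩
  · rw [lt_div_iff₀ (by norm_num)]
    linarith [Real.pi_gt_three]
  · rw [hd.right_eq w (by linarith), ← mul_assoc, norm_mul,
      show w * (w - 1) * Gammaℝ (1 - w) = (1 - w) * (1 - w - 1) * Gammaℝ (1 - w) by ring]
    refine (mul_le_mul (norm_mul_Gammaℝ_le (by simp [hw]; norm_num))
      (norm_LSeries_le hd.summable_right (by simp [hw]; norm_num)) (norm_nonneg _)
      (by norm_num)).trans ?_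
    linarith
  · rw [hd.left_eq w (by linarith), ← mul_assoc, norm_mul]
    refine (mul_le_mul (norm_mul_Gammaℝ_le hw) (norm_LSeries_le hd.summable_left hw)
      (norm_nonneg _) (by norm_num)).trans ?_
    linarith

theorem norm_quad_ge {σ : ℝ} (h0 : 1 ≤ |σ|) (h1 : 1 ≤ |σ - 1|) (t : ℝ) :
    1 + t ^ 2 ≤ ‖((σ : ℂ) + t * I) * ((σ : ℂ) + t * I - 1)‖ := by
  have e : ∀ c : ℝ, 1 ≤ |c| → Real.sqrt (1 + t ^ 2) ≤ ‖(c : ℂ) + t * I‖ := fun c hc => by
    rw [Complex.norm_add_mul_I]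
    exact Real.sqrt_le_sqrt (add_le_add (by nlinarith [sq_abs c]) le_rfl)
  rw [norm_mul, show (σ : ℂ) + t * I - 1 = ((σ - 1 : ℝ) : ℂ) + t * I by push_cast; ring]
  calc 1 + t ^ 2 = Real.sqrt (1 + t ^ 2) * Real.sqrt (1 + t ^ 2) :=
        (Real.mul_self_sqrt (by positivity)).symm
    _ ≤ _ := mul_le_mul (e σ h0) (e _ h1) (Real.sqrt_nonneg _) (norm_nonneg _)

/-- The line integrand `G s x^(-s/2) / (s (s - 1))`. -/
def lineFun (G : ℂ → ℂ) (L : ℝ) (s : ℂ) : ℂ := G s * Complex.exp (-(s / 2) * L) / (s * (s - 1))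

theorem integrable_lineFun (hd : HamburgerData a b G) (L : ℝ) {σ : ℝ} (h0 : 1 ≤ |σ|)
    (h1 : 1 ≤ |σ - 1|) (hl : -1 ≤ σ) (hr : σ ≤ 2) :
    Integrable fun t : ℝ => lineFun G L ((σ : ℂ) + t * I) := by
  obtain ⟨C, hC0, hC⟩ := exists_norm_le_strip hd
  have hre : ∀ t : ℝ, ((σ : ℂ) + t * I).re = σ := fun t => by simp
  have hne : ∀ t : ℝ, ((σ : ℂ) + t * I) * ((σ : ℂ) + t * I - 1) ≠ 0 := fun t h => by
    have := norm_quad_ge h0 h1 t
    rw [h, norm_zero] at this
    nlinarith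
  have hcont : Continuous fun t : ℝ => lineFun G L ((σ : ℂ) + t * I) :=
    ((hd.entire.continuous.comp (by fun_prop)).mul (by fun_prop)).div (by fun_prop) hne
  refine (integrable_inv_one_add_sq.const_mul (C * Real.exp (-(σ / 2) * L))).mono'
    hcont.aestronglyMeasurable (Eventually.of_forall fun t => ?_)
  rw [lineFun, norm_div, norm_mul, Complex.norm_exp, div_eq_mul_inv]
  refine mul_le_mul (mul_le_mul (hC _ (by rw [hre]; exact hl) (by rw [hre]; exact hr))
    (le_of_eq (by simp)) (Real.exp_pos _).le hC0) (inv_anti₀ (by positivity) (norm_quad_ge h0 h1 t))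
    (by positivity) (by positivity)

theorem integral_inv_line {c : ℝ} (hc : c ≠ 0) (T : ℝ) :
    ∫ y in (-T)..T, ((c : ℂ) + y * I)⁻¹ = ((2 * Real.arctan (T / c) : ℝ) : ℂ) := by
  have hne : ∀ y : ℝ, (c : ℂ) + y * I ≠ 0 := fun y h => hc (by simpa using congrArg Complex.re h)
  have hpos : ∀ y : ℝ, 0 < c ^ 2 + y ^ 2 := fun y => by positivity
  have hd : ∀ y : ℝ, HasDerivAt (fun y : ℝ => ((Real.arctan (y / c) : ℝ) : ℂ) -
      ((Real.log (c ^ 2 + y ^ 2) / 2 : ℝ) : ℂ) * I) (((c : ℂ) + y * I)⁻¹) y := fun y => by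
    have h1 : HasDerivAt (fun y : ℝ => Real.arctan (y / c)) (c / (c ^ 2 + y ^ 2)) y := by
      refine ((hasDerivAt_id y).div_const c).arctan.congr_deriv ?_
      simp only [id_eq]
      field_simp
    have h2 : HasDerivAt (fun y : ℝ => Real.log (c ^ 2 + y ^ 2) / 2) (y / (c ^ 2 + y ^ 2)) y := by
      refine (((hasDerivAt_pow 2 y).const_add (c ^ 2)).log (hpos y).ne').div_const 2
        |>.congr_deriv ?_
      simp
      ring
    refine (h1.ofReal_comp.fun_sub (h2.ofReal_comp.mul_const I)).congr_deriv ?_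
    refine eq_inv_of_mul_eq_one_left ?_
    have hp : ((c : ℂ) ^ 2 + (y : ℂ) ^ 2) ≠ 0 := by exact_mod_cast (hpos y).ne'
    push_cast
    field_simp
    linear_combination -(y : ℂ) ^ 2 * I_sq
  rw [intervalIntegral.integral_eq_sub_of_hasDerivAt (fun y _ => hd y)
    (((continuous_const.add (continuous_ofReal.mul continuous_const)).inv₀
      hne).intervalIntegrable _ _)]
  rw [neg_div, Real.arctan_neg]
  push_cast
  ring

theorem tendsto_integral_inv_line {c : ℝ} (hc : c ≠ 0) :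
    Tendsto (fun T : ℝ => ∫ y in (-T)..T, ((c : ℂ) + y * I)⁻¹) atTop
      (𝓝 (((if 0 < c then π else -π : ℝ)) : ℂ)) := by
  simp only [integral_inv_line hc]
  refine (continuous_ofReal.tendsto _).comp ?_
  split_ifs with h
  · have h1 := (tendsto_nhds_of_tendsto_nhdsWithin Real.tendsto_arctan_atTop).comp
      (tendsto_id.atTop_div_const h)
    have h2 := h1.const_mul 2
    simp only [Function.comp_def, id_eq] at h2
    rwa [show 2 * (π / 2) = π by ring] at h2
  · have hneg : c < 0 := lt_of_le_of_ne (not_lt.1 h) hc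
    have h1 := (tendsto_nhds_of_tendsto_nhdsWithin Real.tendsto_arctan_atBot).comp
      (tendsto_id.atTop_div_const_of_neg hneg)
    have h2 := h1.const_mul 2
    simp only [Function.comp_def, id_eq] at h2
    rwa [show 2 * -(π / 2) = -π by ring] at h2

/-- The contour shift. -/
theorem integral_line_sub (hd : HamburgerData a b G) (L : ℝ) :
    (∫ t : ℝ, lineFun G L ((2 : ℝ) + t * I)) - ∫ t : ℝ, lineFun G L (((-1 : ℝ) : ℂ) + t * I) =
      2 * π * (G 1 * Complex.exp (-(1 / 2) * L) - G 0) := by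
  obtain ⟨F, hF⟩ : ∃ F : ℂ → ℂ, F = fun s => G s * Complex.exp (-(s / 2) * L) := ⟨_, rfl⟩
  obtain ⟨D, hD⟩ : ∃ D : ℂ → ℂ, D = fun s => dslope F 1 s - dslope F 0 s := ⟨_, rfl⟩
  have hFd : Differentiable ℂ F := hF ▸ hd.entire.mul (by fun_prop)
  have hDd : Differentiable ℂ D := by
    have h : ∀ c : ℂ, Differentiable ℂ (dslope F c) := fun c =>
      differentiableOn_univ.1 ((Complex.differentiableOn_dslope univ_mem).2 hFd.differentiableOn)
    rw [hD]
    exact (h 1).sub (h 0)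
  have hsplit : ∀ s : ℂ, s ≠ 0 → s ≠ 1 →
      D s = lineFun G L s - F 1 * (s - 1)⁻¹ + F 0 * s⁻¹ := fun s h0 h1 => by
    have h1' : s - 1 ≠ 0 := sub_ne_zero.2 h1
    rw [hD]
    simp only
    rw [dslope_of_ne _ h1, dslope_of_ne _ h0, slope_def_field, slope_def_field, sub_zero,
      lineFun, show G s * Complex.exp (-(s / 2) * L) = F s by rw [hF]]
    field_simp
    ring
  obtain ⟨C, hC0, hC⟩ := exists_norm_le_strip hd
  obtain ⟨K, hK⟩ : ∃ K, K = C * Real.exp |L| + ‖F 1‖ + ‖F 0‖ := ⟨_, rfl⟩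
  have hK0 : 0 ≤ K := by rw [hK]; positivity
  have hhor : ∀ x y : ℝ, x ∈ Icc (-1 : ℝ) 2 → 1 ≤ |y| → ‖D ((x : ℂ) + y * I)‖ ≤ K / |y| := by
    intro x y hx hy
    obtain ⟨s, hs⟩ : ∃ s : ℂ, s = (x : ℂ) + y * I := ⟨_, rfl⟩
    have hsim : s.im = y := by simp [hs]
    have hn : |y| ≤ ‖s‖ := hsim ▸ Complex.abs_im_le_norm s
    have hn1 : |y| ≤ ‖s - 1‖ := by simpa [hsim] using Complex.abs_im_le_norm (s - 1)
    have hy0 : 0 < |y| := by linarith
    have h0 : s ≠ 0 := fun e => by rw [e, norm_zero] at hn; linarith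
    have h1 : s ≠ 1 := fun e => by rw [e, sub_self, norm_zero] at hn1; linarith
    rw [← hs, hsplit s h0 h1]
    have hline : ‖lineFun G L s‖ ≤ C * Real.exp |L| / |y| := by
      rw [lineFun, norm_div, norm_mul, norm_mul, Complex.norm_exp]
      refine div_le_div₀ (by positivity) (mul_le_mul (hC s (by simp [hs]; exact hx.1)
        (by simp [hs]; exact hx.2)) (Real.exp_le_exp.2 ?_) (Real.exp_pos _).le hC0) hy0 ?_
      · simp [hs]
        cases abs_cases L <;> nlinarith [hx.1, hx.2]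
      · exact (le_mul_of_one_le_right (abs_nonneg y) (hy.trans hn1)).trans
          (mul_le_mul_of_nonneg_right hn (norm_nonneg _))
    refine norm_add_le _ _ |>.trans (add_le_add ((norm_sub_le _ _).trans (add_le_add hline
      (le_of_eq rfl))) le_rfl) |>.trans ?_
    rw [norm_mul, norm_mul, norm_inv, norm_inv, hK, add_div, add_div, div_eq_mul_inv ‖F 1‖,
      div_eq_mul_inv ‖F 0‖]
    gcongr
  -- the rectangle
  have hrect : ∀ T : ℝ, 1 ≤ T → ‖(∫ y in (-T)..T, D ((2 : ℝ) + y * I)) -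
      ∫ y in (-T)..T, D (((-1 : ℝ) : ℂ) + y * I)‖ ≤ 6 * K / T := fun T hT => by
    have h := Complex.integral_boundary_rect_eq_zero_of_differentiableOn D
      (((-1 : ℝ) : ℂ) + ((-T : ℝ) : ℂ) * I) (((2 : ℝ) : ℂ) + (T : ℂ) * I) hDd.differentiableOn
    simp only [add_re, ofReal_re, mul_re, I_re, mul_zero, ofReal_im, I_im, mul_one, sub_self,
      add_zero, add_im, mul_im, zero_add, smul_eq_mul] at h
    have hb : ∀ y : ℝ, |y| = T → ‖∫ x in (-1 : ℝ)..2, D ((x : ℂ) + y * I)‖ ≤ 3 * K / T :=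
      fun y hy => by
      refine (intervalIntegral.norm_integral_le_of_norm_le_const (C := K / T) fun x hx => ?_).trans
        (le_of_eq (by norm_num; ring))
      rw [uIoc_of_le (by norm_num)] at hx
      exact hy ▸ hhor x y ⟨hx.1.le, hx.2⟩ (hy ▸ hT)
    obtain ⟨u, hu⟩ : ∃ u, u = (∫ y in (-T)..T, D ((2 : ℝ) + y * I)) -
      ∫ y in (-T)..T, D (((-1 : ℝ) : ℂ) + y * I) := ⟨_, rfl⟩
    have h' : I * u = (∫ x in (-1 : ℝ)..2, D ((x : ℂ) + (T : ℂ) * I)) -
        ∫ x in (-1 : ℝ)..2, D ((x : ℂ) + ((-T : ℝ) : ℂ) * I) := by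
      rw [hu, mul_sub]
      linear_combination h
    rw [← hu, show ‖u‖ = ‖I * u‖ by simp, h']
    refine (norm_sub_le _ _).trans ((add_le_add (hb T (abs_of_nonneg (by linarith)))
      (hb (-T) (by rw [abs_neg, abs_of_nonneg (by linarith)]))).trans (le_of_eq ?_))
    ring
  have hzero : Tendsto (fun T : ℝ => (∫ y in (-T)..T, D ((2 : ℝ) + y * I)) -
      ∫ y in (-T)..T, D (((-1 : ℝ) : ℂ) + y * I)) atTop (𝓝 0) :=
    squeeze_zero_norm' ((eventually_ge_atTop 1).mono hrect)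
      (tendsto_const_nhds.div_atTop tendsto_id)
  -- the two sides
  have hside : ∀ σ : ℝ, σ ≠ 0 → σ ≠ 1 → -1 ≤ σ → σ ≤ 2 → 1 ≤ |σ| → 1 ≤ |σ - 1| →
      Tendsto (fun T : ℝ => ∫ y in (-T)..T, D ((σ : ℂ) + y * I)) atTop
        (𝓝 ((∫ t : ℝ, lineFun G L ((σ : ℂ) + t * I)) -
          F 1 * ((if 0 < σ - 1 then π else -π : ℝ) : ℂ) +
          F 0 * ((if 0 < σ then π else -π : ℝ) : ℂ))) := by
    intro σ h0 h1 hl hr ha0 ha1
    have hi := integrable_lineFun hd L ha0 ha1 hl hr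
    have hc : ∀ c : ℝ, c ≠ 0 → Continuous fun y : ℝ => ((c : ℂ) + y * I)⁻¹ := fun c hc =>
      (continuous_const.add (continuous_ofReal.mul continuous_const)).inv₀ fun y h =>
        hc (by simpa using congrArg Complex.re h)
    have e : ∀ T : ℝ, (∫ y in (-T)..T, D ((σ : ℂ) + y * I)) =
        (∫ y in (-T)..T, lineFun G L ((σ : ℂ) + y * I)) -
          F 1 * (∫ y in (-T)..T, (((σ - 1 : ℝ) : ℂ) + y * I)⁻¹) +
          F 0 * ∫ y in (-T)..T, ((σ : ℂ) + y * I)⁻¹ := fun T => by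
      rw [← intervalIntegral.integral_const_mul, ← intervalIntegral.integral_const_mul,
        ← intervalIntegral.integral_sub hi.intervalIntegrable
          (((hc _ (sub_ne_zero.2 h1)).const_mul _).intervalIntegrable _ _),
        ← intervalIntegral.integral_add
          (hi.intervalIntegrable.sub
            (((hc _ (sub_ne_zero.2 h1)).const_mul _).intervalIntegrable _ _))
          (((hc σ h0).const_mul _).intervalIntegrable _ _)]
      refine intervalIntegral.integral_congr fun y _ => ?_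
      have hs0 : (σ : ℂ) + y * I ≠ 0 := fun h => h0 (by simpa using congrArg Complex.re h)
      have hs1 : (σ : ℂ) + y * I ≠ 1 := fun h => h1 (by simpa using congrArg Complex.re h)
      simp only [hsplit _ hs0 hs1]
      push_cast
      ring
    simp only [e]
    exact ((intervalIntegral_tendsto_integral hi tendsto_neg_atTop_atBot tendsto_id).sub
      ((tendsto_integral_inv_line (sub_ne_zero.2 h1)).const_mul _)).add
      ((tendsto_integral_inv_line h0).const_mul _)
  have hlim := (hside 2 (by norm_num) (by norm_num) (by norm_num) le_rfl (by norm_num)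
    (by norm_num)).sub (hside (-1) (by norm_num) (by norm_num) le_rfl (by norm_num) (by norm_num)
    (by norm_num))
  have he := tendsto_nhds_unique hlim hzero
  have hF1 : F 1 = G 1 * Complex.exp (-(1 / 2) * L) := by rw [hF]
  have hF0 : F 0 = G 0 := by simp [hF]
  rw [hF1, hF0] at he
  norm_num at he ⊢
  linear_combination he

theorem integral_Gamma_line {y : ℝ} (hy : 0 < y) :
    ∫ t : ℝ, Complex.exp (-(1 + ((t / 2 : ℝ) : ℂ) * I) * Real.log y) *
      Complex.Gamma (1 + ((t / 2 : ℝ) : ℂ) * I) = 4 * π * (Real.exp (-y) : ℝ) := by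
  obtain ⟨f, hf⟩ : ∃ f : ℝ → ℂ, f = fun u => ((Real.exp (-u) : ℝ) : ℂ) := ⟨_, rfl⟩
  have hre : ∀ u : ℝ, (0 : ℝ) < (1 + (u : ℂ) * I).re := fun u => by simp
  have hmel : ∀ s : ℂ, 0 < s.re → mellin f s = Complex.Gamma s := fun s hs => by
    rw [Complex.Gamma_eq_integral hs, mellin, GammaIntegral]
    refine setIntegral_congr_fun measurableSet_Ioi fun x _ => ?_
    rw [hf, smul_eq_mul, mul_comm]
  have hconv : MellinConvergent f ((1 : ℝ) : ℂ) := by
    rw [MellinConvergent]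
    refine (Complex.GammaIntegral_convergent (s := ((1 : ℝ) : ℂ)) (by simp)).congr_fun
      (fun x _ => ?_) measurableSet_Ioi
    simp [hf, mul_comm]
  have hcont : Continuous fun u : ℝ => Complex.Gamma (1 + (u : ℂ) * I) :=
    continuous_iff_continuousAt.2 fun u => (differentiableAt_Gamma _ fun m h => by
      have := congrArg Complex.re h
      simp at this
      linarith [(Nat.cast_nonneg m : (0 : ℝ) ≤ m)]).continuousAt.comp'
        (f := fun u : ℝ => 1 + (u : ℂ) * I) (by fun_prop)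
  have hbound : ∀ u : ℝ, ‖Complex.Gamma (1 + (u : ℂ) * I)‖ ≤ 8 * π * (1 + u ^ 2)⁻¹ := fun u => by
    obtain ⟨w, hw⟩ : ∃ w : ℂ, w = ((2 : ℝ) : ℂ) + ((2 * u : ℝ) : ℂ) * I := ⟨_, rfl⟩
    have h1 := norm_mul_Gammaℝ_le (w := w) (by simp [hw])
    rw [norm_mul _ (Gammaℝ w), Gammaℝ_def, norm_mul ((π : ℂ) ^ _),
      norm_cpow_eq_rpow_re_of_pos Real.pi_pos,
      show w / 2 = 1 + (u : ℂ) * I by rw [hw]; push_cast; ring,
      show (-w / 2).re = -1 by simp [hw], Real.rpow_neg_one] at h1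
    have h2 : 1 + u ^ 2 ≤ ‖w * (w - 1)‖ := by
      refine le_trans ?_ (hw ▸ norm_quad_ge (σ := 2) (by norm_num) (by norm_num) (2 * u))
      nlinarith
    rw [← mul_assoc, mul_right_comm, ← div_eq_mul_inv, div_le_iff₀ Real.pi_pos] at h1
    rw [← div_eq_mul_inv, le_div_iff₀ (by positivity), mul_comm]
    exact (mul_le_mul_of_nonneg_right h2 (norm_nonneg _)).trans h1
  have hVI : VerticalIntegrable (mellin f) 1 := by
    refine Integrable.congr ((integrable_inv_one_add_sq.const_mul (8 * π)).mono'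
      hcont.aestronglyMeasurable (Eventually.of_forall hbound)) (Eventually.of_forall fun u => ?_)
    simp only [ofReal_one]
    exact (hmel _ (hre u)).symm
  have h := mellinInv_mellin_eq 1 f hy hconv hVI
    (by rw [hf]; exact (continuous_ofReal.comp (by fun_prop)).continuousAt)
  rw [mellinInv] at h
  obtain ⟨J, hJ⟩ : ∃ J : ℝ → ℂ, J = fun u : ℝ =>
      Complex.exp (-(1 + (u : ℂ) * I) * Real.log y) * Complex.Gamma (1 + (u : ℂ) * I) := ⟨_, rfl⟩
  have hint : (∫ u : ℝ, (y : ℂ) ^ (-(((1 : ℝ) : ℂ) + u * I)) •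
      mellin f (((1 : ℝ) : ℂ) + u * I)) = ∫ u : ℝ, J u := by
    refine integral_congr_ae (Eventually.of_forall fun u => ?_)
    simp only [ofReal_one, smul_eq_mul, hJ]
    rw [hmel _ (hre u), cpow_def_of_ne_zero (ofReal_ne_zero.2 hy.ne'), ← ofReal_log hy.le,
      mul_comm (Real.log y : ℂ)]
  rw [hint] at h
  simp only [hf, Complex.real_smul] at h
  have hsub : (∫ t : ℝ, J (t / 2)) = 2 * ∫ u : ℝ, J u := by
    rw [Measure.integral_comp_div]
    simp
  have : (∫ t : ℝ, J (t / 2)) = 4 * π * (Real.exp (-y) : ℝ) := by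
    rw [hsub, ← h]
    push_cast
    field_simp
    ring
  rw [← this, hJ]

/-- Mellin inversion for a Dirichlet series. -/
theorem integral_line_LSeries {a : ℕ → ℂ} (ha : LSeriesSummable a 2) {x : ℝ} (hx : 0 < x) :
    ∫ t : ℝ, Gammaℝ (2 + t * I) * LSeries a (2 + t * I) *
      Complex.exp (-((2 + t * I) / 2) * Real.log x) = 4 * π * thetaOf a x := by
  obtain ⟨s, hs⟩ : ∃ s : ℝ → ℂ, s = fun t : ℝ => 2 + (t : ℂ) * I := ⟨_, rfl⟩
  obtain ⟨Φ, hΦ⟩ : ∃ Φ : ℝ → ℂ,
      Φ = fun t => Gammaℝ (s t) * Complex.exp (-(s t / 2) * Real.log x) := ⟨_, rfl⟩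
  have hre : ∀ t, (s t).re = 2 := fun t => by simp [hs]
  have hne : ∀ t, s t ≠ 0 := fun t h => by simpa [h] using hre t
  have hcont : Continuous Φ := by
    rw [hΦ]
    refine Continuous.mul ?_ (by rw [hs]; fun_prop)
    refine continuous_iff_continuousAt.2 fun t => ContinuousAt.comp' (f := s) ?_
      (by rw [hs]; fun_prop)
    have h := ((differentiable_Gammaℝ_inv (s t)).continuousAt.inv₀
      (inv_ne_zero (Gammaℝ_ne_zero_of_re_pos (by rw [hre]; norm_num))))
    exact h.congr (Eventually.of_forall fun z => by simp)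
  have hbound : ∀ t, ‖Φ t‖ ≤ 8 * Real.exp (-Real.log x) * (1 + t ^ 2)⁻¹ := fun t => by
    have h1 := norm_mul_Gammaℝ_le (hre t)
    rw [norm_mul] at h1
    have h2 : 1 + t ^ 2 ≤ ‖s t * (s t - 1)‖ := by
      have := norm_quad_ge (σ := 2) (by norm_num) (by norm_num) t
      simpa [hs] using this
    rw [hΦ]
    simp only [norm_mul, Complex.norm_exp]
    rw [show (-(s t / 2) * (Real.log x : ℂ)).re = -Real.log x by simp [hs], mul_comm (8 : ℝ),
      mul_assoc (Real.exp _), mul_comm ‖Gammaℝ (s t)‖]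
    refine mul_le_mul_of_nonneg_left ?_ (Real.exp_pos _).le
    rw [← div_eq_mul_inv, le_div_iff₀ (by positivity), mul_comm]
    exact (mul_le_mul_of_nonneg_right h2 (norm_nonneg _)).trans h1
  have hΦi : Integrable fun t => ‖Φ t‖ :=
    (integrable_inv_one_add_sq.const_mul _).mono' hcont.norm.aestronglyMeasurable
      (Eventually.of_forall fun t => by rw [norm_norm]; exact hbound t)
  have hterm : ∀ n t, ‖Φ t * LSeries.term a (s t) n‖ = ‖Φ t‖ * ‖LSeries.term a 2 n‖ := fun n t => by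
    rw [norm_mul, LSeries.norm_term_eq, LSeries.norm_term_eq, hre, show (2 : ℂ).re = 2 by simp]
  have hcterm : ∀ n, Continuous fun t => Φ t * LSeries.term a (s t) n := fun n => by
    refine hcont.mul ?_
    rcases eq_or_ne n 0 with rfl | hn
    · simp only [LSeries.term_zero]
      exact continuous_const
    · simp only [LSeries.term_of_ne_zero hn]
      refine continuous_const.div (Continuous.const_cpow (by rw [hs]; fun_prop)
        (Or.inl (Nat.cast_ne_zero.2 hn))) fun t =>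
          cpow_ne_zero_iff.2 (Or.inl (Nat.cast_ne_zero.2 hn))
  have hint : ∀ n, Integrable fun t => Φ t * LSeries.term a (s t) n := fun n =>
    (hΦi.mul_const ‖LSeries.term a 2 n‖).mono' (hcterm n).aestronglyMeasurable
      (Eventually.of_forall fun t => (hterm n t).le)
  have hsum : Summable fun n => ∫ t, ‖Φ t * LSeries.term a (s t) n‖ := by
    simp only [hterm, integral_mul_const]
    exact ha.norm.mul_left _
  have hswap := integral_tsum_of_summable_integral_norm hint hsum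
  have hpi : (0 : ℝ) < π := Real.pi_pos
  rw [thetaOf, ← tsum_mul_left]
  refine Eq.trans ?_ (hswap.symm.trans (tsum_congr fun n => ?_))
  · refine integral_congr_ae (Eventually.of_forall fun t => ?_)
    simp only [hΦ, hs, tsum_mul_left, LSeries]
    ring
  · rcases eq_or_ne n 0 with rfl | hn
    · simp
    have hnR : (0 : ℝ) < n := Nat.cast_pos.2 (Nat.pos_of_ne_zero hn)
    obtain ⟨y, hy⟩ : ∃ y, y = π * (n : ℝ) ^ 2 * x := ⟨_, rfl⟩
    have hy0 : 0 < y := by rw [hy]; positivity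
    rw [if_neg hn, ← hy]
    have e : ∀ t : ℝ, Φ t * LSeries.term a (s t) n = a n *
        (Complex.exp (-(1 + ((t / 2 : ℝ) : ℂ) * I) * Real.log y) *
          Complex.Gamma (1 + ((t / 2 : ℝ) : ℂ) * I)) := fun t => by
      rw [hΦ, hy, LSeries.term_of_ne_zero hn]
      simp only [Gammaℝ_def, hs]
      rw [Real.log_mul (by positivity) hx.ne', Real.log_mul hpi.ne' (by positivity), Real.log_pow,
        cpow_def_of_ne_zero (ofReal_ne_zero.2 hpi.ne'), ← ofReal_log hpi.le,
        cpow_def_of_ne_zero (Nat.cast_ne_zero.2 hn), ← natCast_log, div_eq_mul_inv (a n),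
        ← Complex.exp_neg]
      push_cast
      rw [show (2 + (t : ℂ) * I) / 2 = 1 + (t : ℂ) / 2 * I by ring,
        show -(1 + (t : ℂ) / 2 * I) * ((Real.log π : ℂ) + 2 * Complex.log n + (Real.log x : ℂ)) =
          (Real.log π : ℂ) * (-(2 + (t : ℂ) * I) / 2) + -(Complex.log n * (2 + (t : ℂ) * I)) +
            -(1 + (t : ℂ) / 2 * I) * (Real.log x : ℂ) by ring, Complex.exp_add, Complex.exp_add]
      ring
    simp only [e]
    rw [integral_const_mul, integral_Gamma_line hy0]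
    ring

/-- **The theta relation.** -/
theorem theta_relation (hd : HamburgerData a b G) {x : ℝ} (hx : 0 < x) :
    thetaOf a x = ((x ^ (-(1 / 2) : ℝ) : ℝ) : ℂ) * (thetaOf b x⁻¹ + G 1 / 2) - G 0 / 2 := by
  obtain ⟨L, hL⟩ : ∃ L, L = Real.log x := ⟨_, rfl⟩
  have h := integral_line_sub hd L
  have h2 : (∫ t : ℝ, lineFun G L ((2 : ℝ) + t * I)) = 4 * π * thetaOf a x := by
    rw [← integral_line_LSeries hd.summable_left hx, ← hL]
    refine integral_congr_ae (Eventually.of_forall fun t => ?_)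
    simp only [lineFun, ofReal_ofNat]
    obtain ⟨s, hs⟩ : ∃ s : ℂ, s = 2 + (t : ℂ) * I := ⟨_, rfl⟩
    have hre : 1 < s.re := by simp [hs]
    have h0 : s ≠ 0 := fun e => by rw [e] at hre; simp at hre; linarith
    have h1 : s - 1 ≠ 0 := sub_ne_zero.2 fun e => by rw [e] at hre; simp at hre
    rw [← hs, hd.left_eq s hre]
    field_simp
  obtain ⟨q, hq⟩ : ∃ q : ℂ, q = Complex.exp (-(1 / 2) * L) := ⟨_, rfl⟩
  have h3 : (∫ t : ℝ, lineFun G L (((-1 : ℝ) : ℂ) + t * I)) = q * (4 * π * thetaOf b x⁻¹) := by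
    rw [← integral_line_LSeries hd.summable_right (inv_pos.2 hx), Real.log_inv, ← hL,
      ← integral_const_mul, ← integral_neg_eq_self]
    refine integral_congr_ae (Eventually.of_forall fun t => ?_)
    simp only [lineFun]
    obtain ⟨s, hs⟩ : ∃ s : ℂ, s = ((-1 : ℝ) : ℂ) + ((-t : ℝ) : ℂ) * I := ⟨_, rfl⟩
    have hre : s.re = -1 := by simp [hs]
    have h0 : s ≠ 0 := fun e => by rw [e] at hre; simp at hre
    have h1 : s - 1 ≠ 0 := sub_ne_zero.2 fun e => by rw [e] at hre; simp at hre; linarith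
    have hw : 1 - s = 2 + (t : ℂ) * I := by rw [hs]; push_cast; ring
    rw [← hs, hd.right_eq s (by linarith), hw, show -(s / 2) * (L : ℂ) =
      -(1 / 2) * (L : ℂ) + -((2 + (t : ℂ) * I) / 2) * ((-L : ℝ) : ℂ) by rw [← hw]; push_cast; ring,
      Complex.exp_add, ← hq]
    field_simp
  have hr : ((x ^ (-(1 / 2) : ℝ) : ℝ) : ℂ) = q := by
    rw [hq, Real.rpow_def_of_pos hx, hL, ofReal_exp]
    congr 1
    push_cast
    ring
  rw [h2, h3, ← hq] at h
  rw [hr]
  have hpi : (4 * π : ℂ) ≠ 0 := by simp [Real.pi_ne_zero]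
  apply mul_left_cancel₀ hpi
  linear_combination h

end FA.Hamburger
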