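import Fermat.Agent.Hamburger.Inversion

/-!
# The Laplace transform of the theta relation

`∫ x^(-1/2) exp (-a² x - b² / x) = √π e^(-2 a b) / a` turns the theta relation into
`∑ a n 2 t / (t² + n²) = 2 π ∑ b n e^(-2 π n t) + π G 1 - G 0 / t`.
-/

set_option autoImplicit false

noncomputable section

namespace FA.Hamburger

open Complex Filter Topology MeasureTheory Set
open scoped Real

theorem integral_schlomilch {a b : ℝ} (ha : 0 < a) (hb : 0 < b) :
    ∫ x in Ioi (0 : ℝ), Real.exp (-(a ^ 2 * x + b ^ 2 / x)) / √x =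
      √π * Real.exp (-(2 * a * b)) / a := by
  obtain ⟨E, hE⟩ : ∃ E : ℝ → ℝ, E = fun x => Real.exp (-(a ^ 2 * x + b ^ 2 / x)) := ⟨_, rfl⟩
  obtain ⟨φ, hφ⟩ : ∃ φ : ℝ → ℝ, φ = fun x => a * √x - b / √x := ⟨_, rfl⟩
  have hφd : ∀ x ∈ Ioi (0 : ℝ),
      HasDerivWithinAt φ (a / (2 * √x) + b / (2 * x * √x)) (Ioi 0) x := fun x hx => by
    have hx0 : 0 < x := hx
    have hs : HasDerivAt Real.sqrt (1 / (2 * √x)) x := Real.hasDerivAt_sqrt hx0.ne'
    rw [hφ]
    refine (((hs.const_mul a).fun_sub ((hasDerivAt_const x b).fun_div hs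
      (Real.sqrt_ne_zero'.2 hx0))).congr_deriv ?_).hasDerivWithinAt
    have := Real.sqrt_ne_zero'.2 hx0
    field_simp
    rw [Real.sq_sqrt hx0.le]
    ring
  have hmono : StrictMonoOn φ (Ioi 0) := fun x hx y _ hxy => by
    have hx0 : 0 < √x := Real.sqrt_pos.2 hx
    have h := Real.sqrt_lt_sqrt (le_of_lt hx) hxy
    rw [hφ]
    exact sub_lt_sub (mul_lt_mul_of_pos_left h ha) (div_lt_div_of_pos_left hb hx0 h)
  have himg : φ '' Ioi 0 = univ := by
    refine eq_univ_of_forall fun w => ?_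
    obtain ⟨r, hr⟩ : ∃ r, r = √(w ^ 2 + 4 * a * b) := ⟨_, rfl⟩
    have h4 : (0 : ℝ) < 4 * a * b := by positivity
    have hr2 : r ^ 2 = w ^ 2 + 4 * a * b := hr ▸ Real.sq_sqrt (by positivity)
    have hrw : |w| < r := hr ▸ Real.lt_sqrt (abs_nonneg w) |>.2 (by rw [sq_abs]; linarith)
    have hpos : 0 < w + r := by linarith [(abs_lt.1 hrw).1]
    refine ⟨((w + r) / (2 * a)) ^ 2, mem_Ioi.2 (by positivity), ?_⟩
    rw [hφ]
    simp only
    rw [Real.sqrt_sq (by positivity)]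
    field_simp
    linear_combination hr2
  have hsq : ∀ x ∈ Ioi (0 : ℝ), Real.exp (-(φ x) ^ 2) = Real.exp (2 * a * b) * E x := fun x hx => by
    have hx0 : 0 < x := hx
    have := Real.sqrt_ne_zero'.2 hx0
    rw [hE, hφ, ← Real.exp_add]
    congr 1
    field_simp
    rw [Real.sq_sqrt hx0.le]
    ring
  have hpos : ∀ x ∈ Ioi (0 : ℝ), 0 ≤ a / (2 * √x) + b / (2 * x * √x) := fun x hx => by
    have hx0 : 0 < x := hx
    positivity
  have hsum : ∫ x in Ioi (0 : ℝ), (a / 2 * (E x / √x) + b / 2 * (E x / (x * √x))) =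
      √π * Real.exp (-(2 * a * b)) := by
    have h := integral_image_eq_integral_abs_deriv_smul measurableSet_Ioi hφd hmono.injOn
      (fun w => Real.exp (-w ^ 2))
    have hg : ∫ w : ℝ, Real.exp (-w ^ 2) = √π := by
      have h1 := integral_gaussian 1
      simpa using h1
    rw [himg, setIntegral_univ, hg] at h
    rw [h, ← integral_mul_const]
    refine setIntegral_congr_fun measurableSet_Ioi fun x hx => ?_
    have hxs : √x ≠ 0 := Real.sqrt_ne_zero'.2 hx
    have hxne : x ≠ 0 := (show (0 : ℝ) < x from hx).ne'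
    simp only [smul_eq_mul, abs_of_nonneg (hpos x hx), hsq x hx]
    rw [Real.exp_neg (2 * a * b)]
    have := (Real.exp_pos (2 * a * b)).ne'
    field_simp
  have hP : IntegrableOn (fun x => E x / √x) (Ioi 0) := by
    refine (integrableOn_rpow_mul_exp_neg_mul_rpow (s := -(1 / 2)) (p := 1) (b := a ^ 2)
      (by norm_num) one_pos (by positivity)).mono' ?_ ?_
    · rw [hE]
      exact (by fun_prop : Measurable fun x =>
        Real.exp (-(a ^ 2 * x + b ^ 2 / x)) / √x).aestronglyMeasurable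
    · filter_upwards [ae_restrict_mem measurableSet_Ioi] with x hx
      have hx0 : 0 < x := hx
      rw [Real.norm_of_nonneg (div_nonneg (hE ▸ (Real.exp_pos _).le) (Real.sqrt_nonneg x)),
        Real.rpow_one, Real.rpow_neg hx0.le, ← Real.sqrt_eq_rpow, div_eq_mul_inv,
        mul_comm _ (√x)⁻¹]
      refine mul_le_mul_of_nonneg_left ?_ (by positivity)
      rw [hE]
      exact Real.exp_le_exp.2 (by linarith [show 0 ≤ b ^ 2 / x by positivity])
  -- `x ↦ c / x`
  obtain ⟨c, hc⟩ : ∃ c, c = b ^ 2 / a ^ 2 := ⟨_, rfl⟩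
  have hc0 : 0 < c := by rw [hc]; positivity
  have hψd : ∀ x ∈ Ioi (0 : ℝ), HasDerivWithinAt (fun x => c / x) (-(c / x ^ 2)) (Ioi 0) x :=
    fun x hx => by
      have h := (hasDerivAt_inv (show (0 : ℝ) < x from hx).ne').const_mul c
      simpa [div_eq_mul_inv] using h.hasDerivWithinAt (s := Ioi 0)
  have hψinj : InjOn (fun x => c / x) (Ioi (0 : ℝ)) := fun x hx y hy e => by
    have hx0 : x ≠ 0 := (show (0 : ℝ) < x from hx).ne'
    have hy0 : y ≠ 0 := (show (0 : ℝ) < y from hy).ne'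
    simp only at e
    rw [div_eq_div_iff hx0 hy0] at e
    exact mul_left_cancel₀ hc0.ne' e.symm
  have hψimg : (fun x => c / x) '' Ioi (0 : ℝ) = Ioi 0 := by
    ext y
    constructor
    · rintro ⟨x, hx, rfl⟩
      exact mem_Ioi.2 (div_pos hc0 hx)
    · intro hy
      refine ⟨c / y, mem_Ioi.2 (div_pos hc0 hy), ?_⟩
      have hy0 : y ≠ 0 := (show (0 : ℝ) < y from hy).ne'
      field_simp
  have hψe : ∀ x ∈ Ioi (0 : ℝ), |(-(c / x ^ 2))| • (E (c / x) / √(c / x)) =
      b / a * (E x / (x * √x)) := fun x hx => by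
    have hx0 : 0 < x := hx
    have hsc : √c = b / a := by
      rw [hc, show b ^ 2 / a ^ 2 = (b / a) ^ 2 by ring, Real.sqrt_sq (by positivity)]
    have hEc : E (c / x) = E x := by
      rw [hE, hc]
      simp only
      congr 1
      field_simp
      ring
    rw [abs_neg, abs_of_nonneg (by positivity), smul_eq_mul, hEc, Real.sqrt_div hc0.le, ← hsc]
    have hs := Real.sqrt_ne_zero'.2 hx0
    have hs2 := Real.sq_sqrt hx0.le
    have hc2 := Real.sq_sqrt hc0.le
    have hc3 := Real.sqrt_ne_zero'.2 hc0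
    field_simp
    rw [hs2, hc2]
    ring
  have hPQ := integral_image_eq_integral_abs_deriv_smul measurableSet_Ioi hψd hψinj
    (fun x => E x / √x)
  rw [hψimg, setIntegral_congr_fun measurableSet_Ioi hψe, integral_const_mul] at hPQ
  have hQ : IntegrableOn (fun x => E x / (x * √x)) (Ioi 0) := by
    have h := ((integrableOn_image_iff_integrableOn_abs_deriv_smul measurableSet_Ioi hψd hψinj
      (fun x => E x / √x)).1 (hψimg.symm ▸ hP)).congr_fun hψe measurableSet_Ioi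
    refine IntegrableOn.congr_fun (f := fun x => a / b * (b / a * (E x / (x * √x))))
      (Integrable.const_mul h _) (fun x _ => ?_) measurableSet_Ioi
    field_simp
  rw [integral_add (hP.const_mul _) (hQ.const_mul _), integral_const_mul, integral_const_mul]
    at hsum
  obtain ⟨P, hPd⟩ : ∃ P, P = ∫ x in Ioi (0 : ℝ), E x / √x := ⟨_, rfl⟩
  obtain ⟨Q, hQd⟩ : ∃ Q, Q = ∫ x in Ioi (0 : ℝ), E x / (x * √x) := ⟨_, rfl⟩
  rw [← hPd, ← hQd] at hsum hPQ
  have hgoal : P = √π * Real.exp (-(2 * a * b)) / a := by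
    rw [eq_div_iff ha.ne']
    have e : b / 2 * Q = a / 2 * P := by rw [hPQ]; field_simp
    linarith
  rw [← hgoal, hPd, hE]

/-- The coefficient with `n = 0` removed. -/
def coef (a : ℕ → ℂ) (n : ℕ) : ℂ := if n = 0 then 0 else a n

/-- `∑ c n 2 z / (z² + n²)`. -/
def poleSum (c : ℕ → ℂ) (z : ℂ) : ℂ := ∑' n : ℕ, c n * (2 * z / (z ^ 2 + (n : ℂ) ^ 2))

/-- `∑ c n e^(-2 π n z)`. -/
def expoSum (c : ℕ → ℂ) (z : ℂ) : ℂ := ∑' n : ℕ, c n * Complex.exp (-(2 * π * n * z))

theorem coef_zero (a : ℕ → ℂ) : coef a 0 = 0 := if_pos rfl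

theorem summable_coef_div_sq {a : ℕ → ℂ} (ha : LSeriesSummable a 2) :
    Summable fun n : ℕ => ‖coef a n‖ / (n : ℝ) ^ 2 := by
  refine ha.norm.congr fun n => ?_
  rw [LSeries.norm_term_eq, coef]
  split_ifs with h
  · simp
  · simp

theorem norm_coef_le (a : ℕ → ℂ) (n : ℕ) {y : ℝ} (hy : (n : ℝ) ≠ 0 → y ≤ 1 / (n : ℝ) ^ 2) :
    ‖coef a n‖ * y ≤ ‖coef a n‖ / (n : ℝ) ^ 2 := by
  rcases eq_or_ne n 0 with rfl | hn
  · simp [coef_zero]
  · rw [← mul_one_div]
    exact mul_le_mul_of_nonneg_left (hy (Nat.cast_ne_zero.2 hn)) (norm_nonneg _)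

theorem thetaOf_eq (a : ℕ → ℂ) (x : ℝ) :
    thetaOf a x = ∑' n : ℕ, coef a n * (Real.exp (-(π * (n : ℝ) ^ 2 * x)) : ℝ) := rfl

theorem summable_thetaOf {a : ℕ → ℂ} (ha : LSeriesSummable a 2) {x : ℝ} (hx : 0 < x) :
    (Summable fun n : ℕ => coef a n * ((Real.exp (-(π * (n : ℝ) ^ 2 * x)) : ℝ) : ℂ)) ∧
      ‖thetaOf a x‖ ≤ (∑' n : ℕ, ‖coef a n‖ / (n : ℝ) ^ 2) / (π * x) := by
  have hle : ∀ n : ℕ, ‖coef a n * ((Real.exp (-(π * (n : ℝ) ^ 2 * x)) : ℝ) : ℂ)‖ ≤
      (‖coef a n‖ / (n : ℝ) ^ 2) / (π * x) := fun n => by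
    rw [norm_mul, norm_real, Real.norm_of_nonneg (Real.exp_pos _).le, le_div_iff₀ (by positivity),
      mul_assoc]
    refine norm_coef_le a n fun hn => ?_
    obtain ⟨u, hu⟩ : ∃ u, u = π * (n : ℝ) ^ 2 * x := ⟨_, rfl⟩
    have h1 : u * Real.exp (-u) ≤ 1 := by
      rw [Real.exp_neg, ← div_eq_mul_inv, div_le_one (Real.exp_pos u)]
      linarith [Real.add_one_le_exp u]
    rw [← hu, le_div_iff₀ (by positivity)]
    refine le_trans (le_of_eq ?_) h1
    rw [hu]
    ring
  have hs : Summable fun n : ℕ => (‖coef a n‖ / (n : ℝ) ^ 2) / (π * x) :=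
    (summable_coef_div_sq ha).div_const _
  refine ⟨Summable.of_norm_bounded hs hle, ?_⟩
  rw [thetaOf_eq, ← tsum_div_const]
  exact tsum_of_norm_bounded hs.hasSum hle

theorem integral_exp_sq {t : ℝ} (n : ℝ) (ht : 0 < t) :
    IntegrableOn (fun x : ℝ => Real.exp (-((π * n ^ 2 + π * t ^ 2) * x))) (Ioi 0) ∧
      ∫ x in Ioi (0 : ℝ), Real.exp (-((π * n ^ 2 + π * t ^ 2) * x)) =
        1 / (π * (t ^ 2 + n ^ 2)) := by
  have hk : 0 < π * n ^ 2 + π * t ^ 2 := by positivity
  refine ⟨by simpa only [neg_mul] using exp_neg_integrableOn_Ioi 0 hk, ?_⟩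
  have h := integral_exp_mul_Ioi (neg_lt_zero.2 hk) 0
  simp only [neg_mul] at h
  rw [h, mul_zero, neg_zero, Real.exp_zero, neg_div_neg_eq]
  ring

theorem measurable_thetaOf {a : ℕ → ℂ} (ha : LSeriesSummable a 2) :
    AEStronglyMeasurable (fun x => thetaOf a x⁻¹) (volume.restrict (Ioi (0 : ℝ))) := by
  refine aestronglyMeasurable_of_tendsto_ae atTop (f := fun (N : ℕ) x =>
    ∑ n ∈ Finset.range N, coef a n * ((Real.exp (-(π * (n : ℝ) ^ 2 * x⁻¹)) : ℝ) : ℂ))
    (fun N => (by fun_prop : Measurable fun x : ℝ => ∑ n ∈ Finset.range N,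
      coef a n * ((Real.exp (-(π * (n : ℝ) ^ 2 * x⁻¹)) : ℝ) : ℂ)).aestronglyMeasurable) ?_
  filter_upwards [ae_restrict_mem measurableSet_Ioi] with x hx
  rw [thetaOf_eq]
  exact (summable_thetaOf ha (inv_pos.2 (show (0 : ℝ) < x from hx))).1.hasSum.tendsto_sum_nat

variable {a b : ℕ → ℂ} {G : ℂ → ℂ}

/-- **The identity of Siegel's proof.** -/
theorem poleSum_eq (hd : HamburgerData a b G) {t : ℝ} (ht : 0 < t) :
    poleSum (coef a) t = 2 * π * expoSum (coef b) t + π * G 1 - G 0 / t := by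
  obtain ⟨k, hk⟩ : ∃ k, k = π * t ^ 2 := ⟨_, rfl⟩
  have hk0 : 0 < k := by rw [hk]; positivity
  obtain ⟨w, hw⟩ : ∃ w : ℝ → ℂ, w = fun x => ((Real.exp (-(k * x)) : ℝ) : ℂ) := ⟨_, rfl⟩
  obtain ⟨T₁, hT₁⟩ : ∃ T₁ : ℝ → ℂ,
      T₁ = fun x => (((√x)⁻¹ : ℝ) : ℂ) * thetaOf b x⁻¹ * w x := ⟨_, rfl⟩
  obtain ⟨T₂, hT₂⟩ : ∃ T₂ : ℝ → ℝ, T₂ = fun x => Real.exp (-(k * x)) / √x := ⟨_, rfl⟩
  have hkey : ∀ x ∈ Ioi (0 : ℝ), thetaOf a x * w x =
      T₁ x + G 1 / 2 * (T₂ x : ℂ) - G 0 / 2 * w x := fun x hx => by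
    have hx0 : 0 < x := hx
    rw [theta_relation hd hx0, hT₁, hT₂, hw, Real.rpow_neg hx0.le, ← Real.sqrt_eq_rpow]
    simp only [div_eq_mul_inv (Real.exp _), Complex.ofReal_mul]
    ring
  have hi3 : IntegrableOn w (Ioi 0) := by
    have hr : Integrable (fun x => Real.exp (-(k * x))) (volume.restrict (Ioi 0)) := by
      have h := exp_neg_integrableOn_Ioi 0 hk0
      simp only [neg_mul] at h
      exact h
    rw [hw]
    exact hr.ofReal
  have hi2 : IntegrableOn T₂ (Ioi 0) := by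
    refine (integrableOn_rpow_mul_exp_neg_mul_rpow (s := -(1 / 2)) (p := 1) (b := k)
      (by norm_num) one_pos hk0).congr_fun (fun x hx => ?_) measurableSet_Ioi
    simp only [hT₂]
    rw [Real.rpow_one, Real.rpow_neg (le_of_lt hx), ← Real.sqrt_eq_rpow, neg_mul]
    ring
  have hsum2 : ∀ n : ℕ, 0 < n → IntegrableOn
      (fun x : ℝ => Real.exp (-(k * x + π * (n : ℝ) ^ 2 / x)) / √x) (Ioi 0) ∧
      ∫ x in Ioi (0 : ℝ), Real.exp (-(k * x + π * (n : ℝ) ^ 2 / x)) / √x =
        Real.exp (-(2 * π * n * t)) / t := fun n hn => by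
    constructor
    · refine hi2.mono' (by fun_prop :
        Measurable fun x : ℝ =>
          Real.exp (-(k * x + π * (n : ℝ) ^ 2 / x)) / √x).aestronglyMeasurable ?_
      filter_upwards [ae_restrict_mem measurableSet_Ioi] with x hx
      have hx0 : 0 < x := hx
      rw [Real.norm_of_nonneg (by positivity), hT₂]
      refine div_le_div_of_nonneg_right (Real.exp_le_exp.2 ?_) (Real.sqrt_nonneg x)
      linarith [show 0 ≤ π * (n : ℝ) ^ 2 / x by positivity]
    · have hp := Real.sqrt_pos.2 Real.pi_pos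
      have h := integral_schlomilch (a := √π * t) (b := √π * n) (by positivity)
        (mul_pos hp (Nat.cast_pos.2 hn))
      have hs := Real.sq_sqrt Real.pi_pos.le
      rw [mul_pow, mul_pow, hs, ← hk, show 2 * (√π * t) * (√π * n) = 2 * √π ^ 2 * n * t by ring,
        hs] at h
      rw [h]
      field_simp
  have hi1 : IntegrableOn T₁ (Ioi 0) := by
    obtain ⟨S, hS⟩ : ∃ S, S = ∑' n : ℕ, ‖coef b n‖ / (n : ℝ) ^ 2 := ⟨_, rfl⟩
    refine ((integrableOn_rpow_mul_exp_neg_mul_rpow (s := 1 / 2) (p := 1) (b := k) (by norm_num)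
      one_pos hk0).const_mul (S / π)).mono' ?_ ?_
    · rw [hT₁, hw]
      exact ((by fun_prop : Measurable fun x : ℝ => (((√x)⁻¹ : ℝ) : ℂ)).aestronglyMeasurable.mul
        (measurable_thetaOf hd.summable_right)).mul
        (by fun_prop : Measurable fun x : ℝ => ((Real.exp (-(k * x)) : ℝ) : ℂ)).aestronglyMeasurable
    · filter_upwards [ae_restrict_mem measurableSet_Ioi] with x hx
      have hx0 : 0 < x := hx
      have h := (summable_thetaOf hd.summable_right (inv_pos.2 hx0)).2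
      rw [← hS] at h
      simp only [hT₁, hw, norm_mul, norm_real, Real.norm_of_nonneg (Real.exp_pos _).le,
        Real.norm_of_nonneg (show (0 : ℝ) ≤ (√x)⁻¹ by positivity), Real.rpow_one,
        ← Real.sqrt_eq_rpow, neg_mul]
      refine (mul_le_mul_of_nonneg_right (mul_le_mul_of_nonneg_left h (by positivity))
        (Real.exp_pos _).le).trans (le_of_eq ?_)
      have := Real.sqrt_ne_zero'.2 hx0
      field_simp
      rw [Real.sq_sqrt hx0.le]
      ring
  have hI1 : ∫ x in Ioi (0 : ℝ), T₁ x = expoSum (coef b) t / t := by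
    obtain ⟨F, hF⟩ : ∃ F : ℕ → ℝ → ℂ, F = fun n x => coef b n *
        ((Real.exp (-(k * x + π * (n : ℝ) ^ 2 / x)) / √x : ℝ) : ℂ) := ⟨_, rfl⟩
    have hFi : ∀ n, IntegrableOn (F n) (Ioi 0) := fun n => by
      rcases Nat.eq_zero_or_pos n with rfl | hn
      · simp [hF, coef_zero]
      · rw [hF]
        exact Integrable.const_mul (hsum2 n hn).1.ofReal _
    have hFn : ∀ n, ∫ x in Ioi (0 : ℝ), ‖F n x‖ =
        ‖coef b n‖ * (Real.exp (-(2 * π * n * t)) / t) := fun n => by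
      rcases Nat.eq_zero_or_pos n with rfl | hn
      · simp [hF, coef_zero]
      · rw [← (hsum2 n hn).2, ← integral_const_mul]
        refine setIntegral_congr_fun measurableSet_Ioi fun x _ => ?_
        rw [hF]
        simp only [norm_mul, norm_real, Real.norm_eq_abs]
        rw [abs_of_nonneg (by positivity)]
    have hS2 : Summable fun n => ∫ x in Ioi (0 : ℝ), ‖F n x‖ := by
      simp only [hFn]
      refine Summable.of_nonneg_of_le (fun n => by positivity) (fun n => ?_)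
        ((summable_coef_div_sq hd.summable_right).mul_left (1 / (2 * π ^ 2 * t ^ 2 * t)))
      obtain ⟨u, hu⟩ : ∃ u, u = 2 * π * n * t := ⟨_, rfl⟩
      have hu0 : 0 ≤ u := by rw [hu]; positivity
      have h1 : Real.exp (-u) * (u ^ 2 / 2) ≤ 1 := by
        rw [Real.exp_neg, inv_mul_le_iff₀ (Real.exp_pos u), mul_one]
        linarith [Real.quadratic_le_exp_of_nonneg hu0]
      rw [← hu]
      calc ‖coef b n‖ * (Real.exp (-u) / t)
          = ‖coef b n‖ * (Real.exp (-u) * (2 * π ^ 2 * t ^ 2)) * (1 / (2 * π ^ 2 * t ^ 2 * t)) := by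
            field_simp
        _ ≤ ‖coef b n‖ / (n : ℝ) ^ 2 * (1 / (2 * π ^ 2 * t ^ 2 * t)) := by
            refine mul_le_mul_of_nonneg_right (norm_coef_le b n fun hn => ?_)
              (by positivity)
            rw [le_div_iff₀ (by positivity)]
            refine le_trans (le_of_eq ?_) h1
            rw [hu]
            ring
        _ = _ := mul_comm _ _
    have hswap := integral_tsum_of_summable_integral_norm hFi hS2
    have e : (∫ x in Ioi (0 : ℝ), ∑' n, F n x) = ∫ x in Ioi (0 : ℝ), T₁ x := by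
      refine setIntegral_congr_fun measurableSet_Ioi fun x _ => ?_
      simp only [hT₁, hw, hF]
      rw [thetaOf_eq]
      rw [← tsum_mul_left, ← tsum_mul_right]
      refine tsum_congr fun n => ?_
      rw [neg_add, Real.exp_add, div_eq_mul_inv _ x]
      push_cast
      ring_nf
    rw [← e, ← hswap, expoSum, ← tsum_div_const]
    refine tsum_congr fun n => ?_
    rw [hF]
    simp only [integral_const_mul, integral_complex_ofReal]
    rcases Nat.eq_zero_or_pos n with rfl | hn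
    · simp [coef_zero]
    · rw [(hsum2 n hn).2]
      push_cast
      ring
  have hI2 : ∫ x in Ioi (0 : ℝ), T₂ x = 1 / t := by
    have h := Real.integral_rpow_mul_exp_neg_mul_Ioi (a := 1 / 2) (r := k) (by norm_num) hk0
    rw [Real.Gamma_one_half_eq, hk, ← Real.sqrt_eq_rpow, Real.sqrt_div' _ (by positivity),
      Real.sqrt_one, Real.sqrt_mul Real.pi_pos.le, Real.sqrt_sq ht.le] at h
    rw [hT₂, hk]
    refine Eq.trans (setIntegral_congr_fun measurableSet_Ioi fun x hx => ?_) (h.trans ?_)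
    · rw [show (1 : ℝ) / 2 - 1 = -(1 / 2) by norm_num, Real.rpow_neg (le_of_lt hx),
        ← Real.sqrt_eq_rpow]
      ring
    · have := Real.sqrt_ne_zero'.2 Real.pi_pos
      field_simp
  have hI3 : ∫ x in Ioi (0 : ℝ), w x = ((1 / k : ℝ) : ℂ) := by
    rw [hw, integral_complex_ofReal]
    congr 1
    have h := integral_exp_mul_Ioi (neg_lt_zero.2 hk0) 0
    simp only [neg_mul] at h
    rw [h]
    simp
  have hL : ∫ x in Ioi (0 : ℝ), thetaOf a x * w x =
      ∑' n : ℕ, coef a n * ((1 / (π * (t ^ 2 + (n : ℝ) ^ 2)) : ℝ) : ℂ) := by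
    obtain ⟨F, hF⟩ : ∃ F : ℕ → ℝ → ℂ, F = fun n x => coef a n *
        ((Real.exp (-((π * (n : ℝ) ^ 2 + π * t ^ 2) * x)) : ℝ) : ℂ) := ⟨_, rfl⟩
    have hFi : ∀ n, IntegrableOn (F n) (Ioi 0) := fun n => by
      rw [hF]
      exact Integrable.const_mul (integral_exp_sq (n : ℝ) ht).1.ofReal _
    have hS2 : Summable fun n => ∫ x in Ioi (0 : ℝ), ‖F n x‖ := by
      simp only [hF, norm_mul, norm_real, Real.norm_of_nonneg (Real.exp_pos _).le,
        integral_const_mul]
      refine Summable.of_nonneg_of_le (fun n => mul_nonneg (norm_nonneg _)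
        (integral_nonneg fun x => (Real.exp_pos _).le)) (fun n => ?_)
        (summable_coef_div_sq hd.summable_left)
      rw [(integral_exp_sq (n : ℝ) ht).2]
      refine norm_coef_le a n fun hn => ?_
      have hn2 : 0 < (n : ℝ) ^ 2 := by positivity
      refine one_div_le_one_div_of_le hn2 ?_
      nlinarith [Real.pi_gt_three, sq_nonneg t]
    rw [← tsum_congr (g := fun n : ℕ => coef a n * ((1 / (π * (t ^ 2 + (n : ℝ) ^ 2)) : ℝ) : ℂ))
      (f := fun n => ∫ x in Ioi (0 : ℝ), F n x) (fun n => by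
        simp only [hF, integral_const_mul, integral_complex_ofReal,
          (integral_exp_sq (n : ℝ) ht).2]),
      integral_tsum_of_summable_integral_norm hFi hS2]
    refine setIntegral_congr_fun measurableSet_Ioi fun x hx => ?_
    simp only [hF, hw]
    rw [thetaOf_eq, ← tsum_mul_right]
    refine tsum_congr fun n => ?_
    rw [show -((π * (n : ℝ) ^ 2 + π * t ^ 2) * x) = -(π * (n : ℝ) ^ 2 * x) + -(k * x) by
      rw [hk]; ring, Real.exp_add, ofReal_mul, mul_assoc]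
  have hi2c : IntegrableOn (fun x => G 1 / 2 * (T₂ x : ℂ)) (Ioi 0) :=
    Integrable.const_mul hi2.ofReal _
  rw [setIntegral_congr_fun measurableSet_Ioi hkey, integral_sub (hi1.fun_add hi2c)
      (hi3.const_mul _), integral_add hi1 hi2c, integral_const_mul, integral_const_mul,
    integral_complex_ofReal, hI1, hI2, hI3] at hL
  have hps : poleSum (coef a) t = 2 * π * t *
      ∑' n : ℕ, coef a n * ((1 / (π * (t ^ 2 + (n : ℝ) ^ 2)) : ℝ) : ℂ) := by
    rw [poleSum, ← tsum_mul_left]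
    refine tsum_congr fun n => ?_
    have hne : ((t : ℂ) ^ 2 + (n : ℂ) ^ 2) ≠ 0 := by
      exact_mod_cast (show (t : ℝ) ^ 2 + (n : ℝ) ^ 2 ≠ 0 by positivity)
    have hpi : (π : ℂ) ≠ 0 := ofReal_ne_zero.2 Real.pi_ne_zero
    push_cast
    field_simp
  have hpi : (π : ℂ) ≠ 0 := ofReal_ne_zero.2 Real.pi_ne_zero
  have htc : (t : ℂ) ≠ 0 := ofReal_ne_zero.2 ht.ne'
  rw [hps, ← hL, hk]
  push_cast
  field_simp

end FA.Hamburger
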