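import Fermat.Agent.Hamburger.Kernel

/-!
# Periodicity forces constant coefficients

`∑ a n 2 z / (z² + n²) + G 0 / z` equals a function of period `i` for `0 < re z`, hence is
periodic, and its residue `a n` at `i n` does not depend on `n`.
-/

set_option autoImplicit false

noncomputable section

namespace FA.Hamburger

open Complex Filter Topology Set
open scoped Real

/-- The multiples of `i` by integers. -/
def imInts : Set ℂ := Set.range fun k : ℤ => (k : ℂ) * I

theorem isClosed_imInts : IsClosed imInts := by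
  have e : imInts = {z : ℂ | z.re = 0} ∩ Complex.im ⁻¹' Set.range ((↑) : ℤ → ℝ) := by
    ext z
    constructor
    · rintro ⟨k, rfl⟩
      exact ⟨by simp, k, by simp⟩
    · rintro ⟨h0, k, hk⟩
      exact ⟨k, Complex.ext (by simpa using (h0 : z.re = 0).symm) (by simpa using hk)⟩
  rw [e]
  exact (isClosed_eq continuous_re continuous_const).inter
    (Int.isClosedEmbedding_coe_real.isClosed_range.preimage continuous_im)

theorem isPreconnected_compl_of_countable {s : Set ℂ} (hs : s.Countable) : IsPreconnected sᶜ :=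
  (hs.isConnected_compl_of_one_lt_rank (by rw [rank_real_complex]; exact Nat.one_lt_ofNat)).2

theorem add_I_notMem {z : ℂ} (hz : z ∉ imInts) : z + I ∉ imInts := fun ⟨k, hk⟩ =>
  hz ⟨k - 1, by push_cast; linear_combination hk⟩

theorem sq_add_sq_ne_zero {z : ℂ} (hz : z ∉ imInts) (n : ℕ) : z ^ 2 + (n : ℂ) ^ 2 ≠ 0 := fun h => by
  have h2 : (z - n * I) * (z + n * I) = 0 := by linear_combination h - (n : ℂ) ^ 2 * I_sq
  rcases mul_eq_zero.1 h2 with h3 | h3
  · exact hz ⟨n, by push_cast; linear_combination -h3⟩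
  · exact hz ⟨-(n : ℤ), by push_cast; linear_combination -h3⟩

theorem summable_poleSum {c : ℕ → ℂ} (hc : Summable fun n : ℕ => ‖c n‖ / (n : ℝ) ^ 2) (z : ℂ) :
    ∃ N : ℕ, Summable (fun n : ℕ => 4 * (‖z‖ + 1) * (‖c (n + N)‖ / ((n + N : ℕ) : ℝ) ^ 2)) ∧
      ∀ n : ℕ, ∀ w ∈ Metric.ball z 1, (w ^ 2 + ((n + N : ℕ) : ℂ) ^ 2 ≠ 0) ∧
        ‖c (n + N) * (2 * w / (w ^ 2 + ((n + N : ℕ) : ℂ) ^ 2))‖ ≤
          4 * (‖z‖ + 1) * (‖c (n + N)‖ / ((n + N : ℕ) : ℝ) ^ 2) := by
  obtain ⟨N, hN⟩ := exists_nat_gt (2 * (‖z‖ + 1))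
  refine ⟨N, ((summable_nat_add_iff N).2 hc).mul_left _, fun n w hw => ?_⟩
  obtain ⟨m, hm⟩ : ∃ m : ℝ, m = ((n + N : ℕ) : ℝ) := ⟨_, rfl⟩
  have hw' : ‖w‖ ≤ ‖z‖ + 1 := by
    rw [Metric.mem_ball, dist_eq_norm] at hw
    linarith [norm_le_norm_add_norm_sub z w, norm_sub_rev z w]
  have hm2 : 2 * (‖z‖ + 1) < m := hN.trans_le (hm ▸ Nat.cast_le.2 (Nat.le_add_left N n))
  have hge : m ^ 2 / 2 ≤ ‖w ^ 2 + ((n + N : ℕ) : ℂ) ^ 2‖ := by
    have h1 := norm_sub_le (w ^ 2 + ((n + N : ℕ) : ℂ) ^ 2) (w ^ 2)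
    rw [add_sub_cancel_left, norm_pow, norm_pow, Complex.norm_natCast, ← hm] at h1
    nlinarith [norm_nonneg w, norm_nonneg z]
  have hm0 : 0 < m := by linarith [norm_nonneg z]
  have hne : w ^ 2 + ((n + N : ℕ) : ℂ) ^ 2 ≠ 0 := fun h => by
    rw [h, norm_zero] at hge
    nlinarith
  refine ⟨hne, ?_⟩
  rw [norm_mul, norm_div, norm_mul, Complex.norm_ofNat, ← hm,
    show 4 * (‖z‖ + 1) * (‖c (n + N)‖ / m ^ 2) = ‖c (n + N)‖ * (2 * (‖z‖ + 1) / (m ^ 2 / 2)) by
      field_simp; ring]
  exact mul_le_mul_of_nonneg_left (div_le_div₀ (by positivity) (by linarith) (by positivity) hge)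
    (norm_nonneg _)

theorem summable_poleTerm {c : ℕ → ℂ} (hc : Summable fun n : ℕ => ‖c n‖ / (n : ℝ) ^ 2) (z : ℂ) :
    Summable fun n : ℕ => c n * (2 * z / (z ^ 2 + (n : ℂ) ^ 2)) := by
  obtain ⟨N, hs, hb⟩ := summable_poleSum hc z
  exact (summable_nat_add_iff N).1
    (Summable.of_norm_bounded hs fun n => (hb n z (Metric.mem_ball_self one_pos)).2)

theorem differentiableAt_poleSum {c : ℕ → ℂ} (hc : Summable fun n : ℕ => ‖c n‖ / (n : ℝ) ^ 2)
    {z : ℂ} (hz : ∀ n, c n ≠ 0 → z ^ 2 + (n : ℂ) ^ 2 ≠ 0) :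
    DifferentiableAt ℂ (poleSum c) z := by
  obtain ⟨N, hs, hb⟩ := summable_poleSum hc z
  have htail : DifferentiableAt ℂ (fun w =>
      ∑' n : ℕ, c (n + N) * (2 * w / (w ^ 2 + ((n + N : ℕ) : ℂ) ^ 2))) z :=
    (differentiableOn_tsum_of_summable_norm hs (fun n w hw =>
      ((by fun_prop : DifferentiableAt ℂ (fun w : ℂ => 2 * w) w).fun_div (by fun_prop)
        (hb n w hw).1 |>.const_mul _).differentiableWithinAt) Metric.isOpen_ball
      fun n w hw => (hb n w hw).2).differentiableAt (Metric.ball_mem_nhds z one_pos)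
  have hhead : DifferentiableAt ℂ
      (fun w => ∑ n ∈ Finset.range N, c n * (2 * w / (w ^ 2 + (n : ℂ) ^ 2))) z := by
    refine DifferentiableAt.fun_sum fun n _ => ?_
    rcases eq_or_ne (c n) 0 with h0 | h0
    · simp only [h0, zero_mul]
      exact differentiableAt_const _
    · exact ((by fun_prop : DifferentiableAt ℂ (fun w : ℂ => 2 * w) z).fun_div (by fun_prop)
        (hz n h0)).const_mul _
  refine (hhead.fun_add htail).congr_of_eventuallyEq (Eventually.of_forall fun w => ?_)
  exact ((summable_poleTerm hc w).sum_add_tsum_nat_add N).symm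

theorem differentiableAt_expoSum {c : ℕ → ℂ} (hc : Summable fun n : ℕ => ‖c n‖ / (n : ℝ) ^ 2)
    (hc0 : c 0 = 0) {z : ℂ} (hz : 0 < z.re) : DifferentiableAt ℂ (expoSum c) z := by
  have hb : ∀ (n : ℕ) (w : ℂ), w ∈ {w : ℂ | z.re / 2 < w.re} →
      ‖c n * Complex.exp (-(2 * π * n * w))‖ ≤
        2 / (π * z.re) ^ 2 * (‖c n‖ / (n : ℝ) ^ 2) := fun n w hw => by
    rcases Nat.eq_zero_or_pos n with rfl | hn
    · simp [hc0]
    obtain ⟨u, hu⟩ : ∃ u, u = π * z.re * n := ⟨_, rfl⟩
    have hn0 : (0 : ℝ) < n := Nat.cast_pos.2 hn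
    have hu0 : 0 < u := by rw [hu]; positivity
    have h1 : Real.exp (-u) ≤ 2 / u ^ 2 := by
      rw [Real.exp_neg, le_div_iff₀ (by positivity), inv_mul_le_iff₀ (Real.exp_pos u)]
      linarith [Real.quadratic_le_exp_of_nonneg hu0.le]
    have hre : (-(2 * (π : ℂ) * n * w)).re = -(2 * π * n * w.re) := by simp
    rw [norm_mul, Complex.norm_exp, hre]
    refine (mul_le_mul_of_nonneg_left ((Real.exp_le_exp.2 ?_).trans h1) (norm_nonneg _)).trans
      (le_of_eq ?_)
    · rw [hu]
      have : z.re / 2 < w.re := hw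
      nlinarith [mul_pos Real.pi_pos hn0]
    · rw [hu]
      field_simp
  exact (differentiableOn_tsum_of_summable_norm (hc.mul_left _) (fun n =>
    ((differentiable_id.const_mul (2 * (π : ℂ) * n)).fun_neg.cexp.const_mul (c n)).differentiableOn)
    (isOpen_lt continuous_const continuous_re) hb).differentiableAt
    ((isOpen_lt continuous_const continuous_re).mem_nhds (half_lt_self hz))

theorem expoSum_add_I (c : ℕ → ℂ) (z : ℂ) : expoSum c (z + I) = expoSum c z := by
  refine tsum_congr fun n => ?_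
  rw [show -(2 * (π : ℂ) * n * (z + I)) = -(2 * π * n * z) + -((n : ℂ) * (2 * π * I)) by ring,
    Complex.exp_add, Complex.exp_neg ((n : ℂ) * _), Complex.exp_nat_mul_two_pi_mul_I, inv_one,
    mul_one]

variable {a b : ℕ → ℂ} {G : ℂ → ℂ}

/-- `∑ a n 2 z / (z² + n²) + G 0 / z`. -/
def periodFun (a : ℕ → ℂ) (G : ℂ → ℂ) (z : ℂ) : ℂ := poleSum (coef a) z + G 0 / z

theorem differentiableAt_periodFun (hd : HamburgerData a b G) {z : ℂ} (hz : z ∉ imInts) :
    DifferentiableAt ℂ (periodFun a G) z :=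
  (differentiableAt_poleSum (summable_coef_div_sq hd.summable_left)
    fun n _ => sq_add_sq_ne_zero hz n).add ((differentiableAt_const _).fun_div differentiableAt_id
      fun h => hz ⟨0, by simpa using h.symm⟩)

theorem periodFun_eq (hd : HamburgerData a b G) {z : ℂ} (hz : 0 < z.re) :
    periodFun a G z = 2 * π * expoSum (coef b) z + π * G 1 := by
  obtain ⟨U, hU⟩ : ∃ U, U = {w : ℂ | 0 < w.re} := ⟨_, rfl⟩
  have hUo : IsOpen U := hU ▸ isOpen_lt continuous_const continuous_re
  have hf : AnalyticOnNhd ℂ (periodFun a G) U :=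
    DifferentiableOn.analyticOnNhd (fun w hw => (differentiableAt_periodFun hd (by
      rintro ⟨k, rfl⟩
      rw [hU] at hw
      simp at hw)).differentiableWithinAt) hUo
  have hg : AnalyticOnNhd ℂ (fun w => 2 * π * expoSum (coef b) w + π * G 1) U :=
    DifferentiableOn.analyticOnNhd (fun w hw => (((differentiableAt_expoSum
      (summable_coef_div_sq hd.summable_right) (coef_zero b) (by rw [hU] at hw; exact hw)).const_mul
      _).add_const _).differentiableWithinAt) hUo
  have hpre : IsPreconnected U := hU ▸ (convex_halfSpace_re_gt 0).isPreconnected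
  refine hf.eqOn_of_preconnected_of_frequently_eq hg hpre (z₀ := 1) (hU ▸ (by simp : (1 : ℂ) ∈ _))
    ?_ (hU ▸ hz : z ∈ U)
  have ht : Tendsto (fun x : ℝ => (x : ℂ)) (𝓝[≠] 1) (𝓝[≠] (1 : ℂ)) := by
    refine tendsto_nhdsWithin_of_tendsto_nhds_of_eventually_within _
      ((continuous_ofReal.tendsto' 1 1 (by simp)).mono_left nhdsWithin_le_nhds) ?_
    filter_upwards [self_mem_nhdsWithin] with y hy
    simpa [Complex.ext_iff] using hy
  refine ht.frequently (Eventually.frequently ?_)
  filter_upwards [nhdsWithin_le_nhds (eventually_gt_nhds (show (0 : ℝ) < 1 from one_pos))] with x hx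
  rw [periodFun, poleSum_eq hd hx]
  ring

theorem periodFun_add_I (hd : HamburgerData a b G) {z : ℂ} (hz : z ∉ imInts) :
    periodFun a G (z + I) = periodFun a G z := by
  have hUo : IsOpen imIntsᶜ := isClosed_imInts.isOpen_compl
  have hf : AnalyticOnNhd ℂ (periodFun a G) imIntsᶜ :=
    DifferentiableOn.analyticOnNhd
      (fun w hw => (differentiableAt_periodFun hd hw).differentiableWithinAt) hUo
  have hg : AnalyticOnNhd ℂ (fun w => periodFun a G (w + I)) imIntsᶜ :=
    DifferentiableOn.analyticOnNhd (fun w hw => ((differentiableAt_periodFun hd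
      (add_I_notMem hw)).fun_comp' w (differentiableAt_id.add_const I)).differentiableWithinAt) hUo
  refine hg.eqOn_of_preconnected_of_eventuallyEq hf
    (isPreconnected_compl_of_countable (Set.countable_range _)) (z₀ := 1)
    (by rintro ⟨k, hk⟩; simpa using congrArg Complex.re hk) ?_ hz
  filter_upwards [(isOpen_lt continuous_const continuous_re).mem_nhds
    (show (0 : ℝ) < (1 : ℂ).re by simp)] with w hw
  rw [periodFun_eq hd hw, periodFun_eq hd (by simpa using hw), expoSum_add_I]

theorem residue_periodFun (hd : HamburgerData a b G) {n : ℕ} (hn : 0 < n) :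
    Tendsto (fun z => (z - n * I) * periodFun a G z) (𝓝[≠] ((n : ℂ) * I)) (𝓝 (a n)) := by
  obtain ⟨p, hp⟩ : ∃ p : ℂ, p = (n : ℂ) * I := ⟨_, rfl⟩
  obtain ⟨c, hc⟩ : ∃ c : ℕ → ℂ, c = fun m => if m = n then 0 else coef a m := ⟨_, rfl⟩
  have hsc : Summable fun m : ℕ => ‖c m‖ / (m : ℝ) ^ 2 := by
    refine Summable.of_nonneg_of_le (fun m => by positivity) (fun m => ?_)
      (summable_coef_div_sq hd.summable_left)
    rw [hc]
    simp only
    split_ifs
    · simp only [norm_zero, zero_div]; positivity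
    · exact le_rfl
  have hp0 : p ≠ 0 := by rw [hp]; simp [hn.ne', I_ne_zero]
  have hcd : ContinuousAt (poleSum c) p := by
    refine (differentiableAt_poleSum hsc fun m hm h => hm ?_).continuousAt
    have h2 : ((m : ℂ)) ^ 2 = ((n : ℂ)) ^ 2 := by
      rw [hp] at h
      linear_combination h - (n : ℂ) ^ 2 * I_sq
    have : m = n := by
      have h3 : m ^ 2 = n ^ 2 := by exact_mod_cast h2
      exact (Nat.pow_left_injective two_ne_zero) h3
    simp [hc, this]
  obtain ⟨H, hH⟩ : ∃ H : ℂ → ℂ, H = fun z =>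
      a n * (2 * z / (z + p)) + (z - p) * (poleSum c z + G 0 / z) := ⟨_, rfl⟩
  have hHc : ContinuousAt H p := by
    rw [hH]
    exact (continuousAt_const.mul ((by fun_prop : ContinuousAt (fun z : ℂ => 2 * z) p).div
      (by fun_prop) (by intro h; exact hp0 (by linear_combination h / 2)))).add
      ((by fun_prop : ContinuousAt (fun z : ℂ => z - p) p).mul
        (hcd.add (continuousAt_const.div continuousAt_id hp0)))
  have hval : H p = a n := by
    rw [hH]
    simp only [sub_self, zero_mul, add_zero]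
    rw [show p + p = 2 * p by ring, div_self (mul_ne_zero two_ne_zero hp0), mul_one]
  have hlim := hHc.tendsto.mono_left (nhdsWithin_le_nhds (s := {p}ᶜ))
  rw [hval] at hlim
  rw [← hp]
  refine hlim.congr' ?_
  filter_upwards [self_mem_nhdsWithin,
    nhdsWithin_le_nhds (eventually_ne_nhds (show p ≠ -p from fun h => hp0
      (by linear_combination h / 2)))] with z hz hz2
  have h1 : z - p ≠ 0 := sub_ne_zero.2 hz
  have h2 : z + p ≠ 0 := fun h => hz2 (eq_neg_of_add_eq_zero_left h)
  have hden : z ^ 2 + (n : ℂ) ^ 2 = (z - p) * (z + p) := by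
    rw [hp]
    linear_combination (n : ℂ) ^ 2 * I_sq
  rw [hH, periodFun]
  simp only
  have hsplit : poleSum (coef a) z = coef a n * (2 * z / (z ^ 2 + (n : ℂ) ^ 2)) + poleSum c z := by
    rw [poleSum,
      (summable_poleTerm (summable_coef_div_sq hd.summable_left) z).tsum_eq_add_tsum_ite n,
      poleSum]
    refine congrArg _ (tsum_congr fun m => ?_)
    rw [hc]
    simp only
    split_ifs <;> simp
  rw [hsplit, coef, if_neg hn.ne', hden]
  field_simp
  ring

theorem coef_const (hd : HamburgerData a b G) {n : ℕ} (hn : 1 ≤ n) : a n = a 1 := by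
  induction n, hn using Nat.le_induction with
  | base => rfl
  | succ n hn ih =>
    rw [← ih]
    have hmap : Tendsto (fun z : ℂ => z + I) (𝓝[≠] ((n : ℂ) * I))
        (𝓝[≠] (((n + 1 : ℕ) : ℂ) * I)) := by
      refine tendsto_nhdsWithin_of_tendsto_nhds_of_eventually_within _
        (((continuous_id.add continuous_const).tendsto' _ _ (by push_cast; simp [add_mul])
          ).mono_left nhdsWithin_le_nhds) ?_
      filter_upwards [self_mem_nhdsWithin] with z hz h
      exact hz (show z = (n : ℂ) * I by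
        have h' : z + I = ((n + 1 : ℕ) : ℂ) * I := h
        push_cast at h'
        linear_combination h')
    refine tendsto_nhds_unique (((residue_periodFun hd n.succ_pos).comp hmap).congr' ?_)
      (residue_periodFun hd (show 0 < n by omega))
    have hball : ∀ᶠ z in 𝓝[≠] ((n : ℂ) * I), z ∉ imInts := by
      filter_upwards [self_mem_nhdsWithin, nhdsWithin_le_nhds (Metric.ball_mem_nhds _ one_pos)]
        with z hz hzb
      rintro ⟨k, rfl⟩
      refine hz ?_
      rw [Metric.mem_ball, dist_eq_norm, ← sub_mul, norm_mul, norm_I, mul_one] at hzb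
      have hk : |k - (n : ℤ)| < 1 := by
        have : ‖(((k - (n : ℤ)) : ℤ) : ℂ)‖ < 1 := by push_cast; exact hzb
        rw [Complex.norm_intCast] at this
        exact_mod_cast this
      rw [Int.abs_lt_one_iff, sub_eq_zero] at hk
      simp [hk]
    filter_upwards [hball] with z hz
    simp only [Function.comp_apply, periodFun_add_I hd hz]
    push_cast
    ring

theorem G_eq (hd : HamburgerData a b G) {s : ℂ} (h0 : s ≠ 0) (h1 : s ≠ 1) :
    G s = a 1 * (s * (s - 1) * completedRiemannZeta s) := by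
  obtain ⟨U, hU⟩ : ∃ U : Set ℂ, U = {0, 1}ᶜ := ⟨_, rfl⟩
  have hUo : IsOpen U := hU ▸ (Set.toFinite _).isClosed.isOpen_compl
  have hf : AnalyticOnNhd ℂ G U := hd.entire.differentiableOn.analyticOnNhd hUo
  have hg : AnalyticOnNhd ℂ (fun w => a 1 * (w * (w - 1) * completedRiemannZeta w)) U :=
    DifferentiableOn.analyticOnNhd (fun w hw => by
      rw [hU, Set.mem_compl_iff, Set.mem_insert_iff, Set.mem_singleton_iff, not_or] at hw
      exact (((by fun_prop : DifferentiableAt ℂ (fun w : ℂ => w * (w - 1)) w).mul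
        (differentiableAt_completedZeta hw.1 hw.2)).const_mul _).differentiableWithinAt) hUo
  refine hf.eqOn_of_preconnected_of_eventuallyEq hg (z₀ := 3)
    (hU ▸ isPreconnected_compl_of_countable (Set.toFinite _).countable)
    (hU ▸ by simp) ?_ (hU ▸ by simp [h0, h1] : s ∈ U)
  filter_upwards [(isOpen_lt continuous_const continuous_re).mem_nhds
    (show (1 : ℝ) < (3 : ℂ).re by simp)] with w hw
  have hw0 : w ≠ 0 := fun h => by rw [h, zero_re] at hw; linarith
  have hL : LSeries a w = a 1 * riemannZeta w := by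
    rw [← LSeries_one_eq_riemannZeta hw, LSeries, LSeries, ← tsum_mul_left]
    refine tsum_congr fun n => ?_
    rcases Nat.eq_zero_or_pos n with rfl | hn
    · simp
    · rw [LSeries.term_of_ne_zero hn.ne', LSeries.term_of_ne_zero hn.ne', coef_const hd hn]
      simp only [Pi.one_apply]
      ring
  have hne : Gammaℝ w ≠ 0 := Gammaℝ_ne_zero_of_re_pos (by linarith)
  rw [hd.left_eq w hw, hL, riemannZeta_def_of_ne_zero hw0]
  field_simp

theorem coef_right_eq (hd : HamburgerData a b G) {n : ℕ} (hn : n ≠ 0) : b n = a 1 := by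
  have hfin : LSeries.abscissaOfAbsConv b < ⊤ :=
    lt_of_le_of_lt hd.summable_right.abscissaOfAbsConv_le (EReal.coe_lt_top _)
  have hfin2 : LSeries.abscissaOfAbsConv (fun _ : ℕ => a 1) < ⊤ :=
    lt_of_le_of_lt (LSeries.abscissaOfAbsConv_le_of_le_const ⟨‖a 1‖, fun _ _ => le_rfl⟩)
      (EReal.coe_lt_top 1)
  refine LSeries.eq_of_LSeries_eventually_eq hfin hfin2 ?_ hn
  filter_upwards [eventually_gt_atTop (1 : ℝ)] with x hx
  obtain ⟨w, hw⟩ : ∃ w : ℂ, w = (x : ℂ) := ⟨_, rfl⟩
  have hre : 1 < w.re := by simp [hw, hx]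
  have hs0 : 1 - w ≠ 0 := sub_ne_zero.2 fun h => by rw [← h] at hre; simp at hre
  have hs1 : 1 - w ≠ 1 := fun h => by
    have : w = 0 := by linear_combination -h
    rw [this] at hre
    simp at hre
    linarith
  have h := hd.right_eq (1 - w) (by simp; linarith)
  rw [sub_sub_cancel, G_eq hd hs0 hs1, completedRiemannZeta_one_sub] at h
  have hw0 : w ≠ 0 := fun e => by rw [e] at hre; simp at hre; linarith
  have hne : Gammaℝ w ≠ 0 := Gammaℝ_ne_zero_of_re_pos (by linarith)
  have hc : completedRiemannZeta w = riemannZeta w * Gammaℝ w := by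
    rw [riemannZeta_def_of_ne_zero hw0, div_mul_cancel₀ _ hne]
  rw [hc] at h
  have hq : (1 - w) * (1 - w - 1) ≠ 0 :=
    mul_ne_zero hs0 (sub_ne_zero.2 hs1)
  have h2 : LSeries b w = a 1 * riemannZeta w := by
    apply mul_left_cancel₀ (mul_ne_zero hq hne)
    linear_combination -h
  have h3 : LSeries (fun _ : ℕ => a 1) w = a 1 * riemannZeta w := by
    rw [← LSeries_one_eq_riemannZeta hre, ← LSeries_smul]
    exact LSeries_congr (fun {n} _ => by simp) w
  rw [← hw, h2, h3]

end FA.Hamburger
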